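import Fermat.Agent.H18.ORD.NodalBal

/-!
# P-ORD, block B1 (helper91): the node fields (M3), (M4) of `NodalRvHyp` from HARTOGS at the node

Abstract reduction (no model input): the three node fields `node_le`, `node_lt`, `glue` of
`Fermat.Agent.H18.ORD.NodalRvHyp` follow from

* `HartogsAt G ν` : a function integral at both Gauss valuations and without pole at the places
  specialising to the node `ν` has a *glued value* `κ ∈ k` at `ν` (it lies in the local ring of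
  the model at `ν`), and `κ = 0` if it has a zero at a place specialising to `ν`;
* `IsNodeCoord … X` : a function `X` without zero or pole at the places specialising to `ν`,
  a unit at `V_∞` whose reduction is a uniformiser at the branch of `ν` on `C_∞`, and such that
  `X / p` is a unit at `V_0` (`X Y = p · unit`); and the same for `Y` with the roles exchanged.

Proof of `node_le` (`u` unit of `V_∞`, `w = c u` unit of `V_0`, `a = ord_ν (red_∞ u)`):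
`z := X ^ (-a) u` has `ord_ν (red_∞ z) = 0` and no pole over `ν`;
`z = (p ^ a c)⁻¹ · (X / p) ^ (-a) w`, so if `p ^ a c ∉ A` then `z ∈ 𝔪_{V_0}`, its glued value is
`0`, and `red_∞ z` vanishes at `ν`: contradiction.
-/

set_option autoImplicit false
set_option linter.unusedSectionVars false
set_option linter.style.haveILetI false

noncomputable section

open AlgebraicCurve ModularCurve

namespace Fermat.Agent.H91.ORD

open Fermat.Agent.H18.ORD

/-! ## Generic one-sided lemma -/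

section OneSided

variable {L F F₁ F₂ : Type*} [Field L] [Field F] [Algebra L F] [Field F₁] [Field F₂]
variable {A : ValuationSubring L}
variable [Algebra (IsLocalRing.ResidueField A) F₁] [Algebra (IsLocalRing.ResidueField A) F₂]

/-- integral powers of a unit of a subring -/
theorem na_zpow_mem {R : Type*} [Field R] (V : Subring R) {x : R} (hx : x ∈ V) (hxi : x⁻¹ ∈ V)
    (n : ℤ) : x ^ n ∈ V := by
  rcases n with n | n
  · rw [Int.ofNat_eq_natCast, zpow_natCast]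
    exact pow_mem hx n
  · rw [zpow_negSucc, ← inv_pow]
    exact pow_mem hxi (n + 1)

/-- a ring homomorphism from a subring of a field to a field commutes with integral powers of
units -/
theorem na_map_zpow {R S : Type*} [Field R] [Field S] (V : Subring R) (red : V →+* S) {x : R}
    (hx : x ∈ V) (hxi : x⁻¹ ∈ V) (hx0 : x ≠ 0) (n : ℤ) (h : x ^ n ∈ V) :
    red ⟨x ^ n, h⟩ = red ⟨x, hx⟩ ^ n := by
  have hinv : red ⟨x⁻¹, hxi⟩ = (red ⟨x, hx⟩)⁻¹ := by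
    have h1 : red ⟨x, hx⟩ * red ⟨x⁻¹, hxi⟩ = 1 := by
      rw [← map_mul]
      have : (⟨x, hx⟩ : V) * ⟨x⁻¹, hxi⟩ = 1 := Subtype.ext (mul_inv_cancel₀ hx0)
      rw [this, map_one]
    exact eq_inv_of_mul_eq_one_right h1
  rcases n with n | n
  · have e : (⟨x ^ (Int.ofNat n), h⟩ : V) = ⟨x, hx⟩ ^ n := by
      apply Subtype.ext
      show x ^ (Int.ofNat n) = x ^ n
      rw [Int.ofNat_eq_natCast, zpow_natCast]
    rw [e, map_pow, Int.ofNat_eq_natCast, zpow_natCast]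
  · have e : (⟨x ^ (Int.negSucc n), h⟩ : V) = ⟨x⁻¹, hxi⟩ ^ (n + 1) := by
      apply Subtype.ext
      show x ^ (Int.negSucc n) = x⁻¹ ^ (n + 1)
      rw [zpow_negSucc, inv_pow]
    rw [e, map_pow, hinv, zpow_negSucc, inv_pow]

/-- **The slope inequality at a node, one side.** -/
theorem node_slope_oneSided
    (V₁ V₂ : Subring F) (red₁ : V₁ →+* F₁) (red₂ : V₂ →+* F₂)
    (Q₁ : Place (IsLocalRing.ResidueField A) F₁) (Q₂ : Place (IsLocalRing.ResidueField A) F₂)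
    (S : Set (Place L F)) (π : L) (hπ0 : π ≠ 0)
    (hconst₂ : ∀ c : L, c ∈ A → algebraMap L F c ∈ V₂)
    (hred₂ : ∀ (c : A) (h : algebraMap L F (c : L) ∈ V₂),
      red₂ ⟨_, h⟩ = algebraMap (IsLocalRing.ResidueField A) F₂ (IsLocalRing.residue A c))
    (hinv₁ : ∀ u : V₁, red₁ u ≠ 0 → (u : F)⁻¹ ∈ V₁)
    (hinv₂ : ∀ u : V₂, red₂ u ≠ 0 → (u : F)⁻¹ ∈ V₂)
    (hart : ∀ (z : F) (h : z ∈ V₁) (h0 : z ∈ V₂), (∀ P ∈ S, 0 ≤ P.ord z) →
      ∃ κ : IsLocalRing.ResidueField A,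
        red₁ ⟨z, h⟩ - algebraMap _ F₁ κ ∈ Q₁.toValuationSubring.nonunits ∧
        red₂ ⟨z, h0⟩ - algebraMap _ F₂ κ ∈ Q₂.toValuationSubring.nonunits ∧
        ((∃ P ∈ S, 0 < P.ord z) → κ = 0))
    (X : F) (hXS : ∀ P ∈ S, P.ord X = 0) (hX₁ : X ∈ V₁)
    (hXsimple : Q₁.ord (red₁ ⟨X, hX₁⟩) = 1)
    (hX₂ : X * (algebraMap L F π)⁻¹ ∈ V₂) (hXunit : red₂ ⟨_, hX₂⟩ ≠ 0)
    (u : V₁) (w : V₂) (c : L) (hu : red₁ u ≠ 0) (hw : red₂ w ≠ 0)
    (hwu : (w : F) = algebraMap L F c * (u : F))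
    (hpole : ∀ P ∈ S, 0 ≤ P.ord (u : F)) :
    π ^ (Q₁.ord (red₁ u)) * c ∈ A ∧
      ((∃ P ∈ S, 0 < P.ord (u : F)) → π ^ (Q₁.ord (red₁ u)) * c ∈ A.nonunits) := by
  classical
  set a : ℤ := Q₁.ord (red₁ u) with ha
  -- basic non-vanishing
  have hu0 : (u : F) ≠ 0 := by
    intro h
    apply hu
    have : u = 0 := Subtype.ext h
    rw [this, map_zero]
  have hw0 : (w : F) ≠ 0 := by
    intro h
    apply hw
    have : w = 0 := Subtype.ext h
    rw [this, map_zero]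
  have hc0 : c ≠ 0 := by
    rintro rfl
    rw [map_zero, zero_mul] at hwu
    exact hw0 hwu
  have hcF : algebraMap L F c ≠ 0 := by
    rw [Ne, map_eq_zero_iff _ (algebraMap L F).injective]
    exact hc0
  have hπF : algebraMap L F π ≠ 0 := by
    rw [Ne, map_eq_zero_iff _ (algebraMap L F).injective]
    exact hπ0
  have hredX : red₁ ⟨X, hX₁⟩ ≠ 0 := by
    intro h
    rw [h, Place.ord_zero] at hXsimple
    exact zero_ne_one hXsimple
  have hX0 : X ≠ 0 := by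
    intro h
    apply hredX
    have : (⟨X, hX₁⟩ : V₁) = 0 := Subtype.ext h
    rw [this, map_zero]
  have hXi₁ : X⁻¹ ∈ V₁ := hinv₁ ⟨X, hX₁⟩ hredX
  -- the element `z`
  set z : F := X ^ (-a) * (u : F) with hz
  have hXa₁ : X ^ (-a) ∈ V₁ := na_zpow_mem V₁ hX₁ hXi₁ (-a)
  have hz₁ : z ∈ V₁ := V₁.mul_mem hXa₁ u.2
  have hz0 : z ≠ 0 := mul_ne_zero (zpow_ne_zero _ hX0) hu0
  have hredz : red₁ ⟨z, hz₁⟩ = red₁ ⟨X, hX₁⟩ ^ (-a) * red₁ u := by
    have e : (⟨z, hz₁⟩ : V₁) = ⟨X ^ (-a), hXa₁⟩ * u := Subtype.ext rfl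
    rw [e, map_mul, na_map_zpow V₁ red₁ hX₁ hXi₁ hX0 (-a) hXa₁]
  have hredz0 : red₁ ⟨z, hz₁⟩ ≠ 0 := by
    rw [hredz]
    exact mul_ne_zero (zpow_ne_zero _ hredX) hu
  have hordz : Q₁.ord (red₁ ⟨z, hz₁⟩) = 0 := by
    rw [hredz, Q₁.ord_mul (zpow_ne_zero _ hredX) hu, Q₁.ord_zpow, hXsimple, ← ha]
    ring
  have hzS : ∀ P ∈ S, P.ord z = P.ord (u : F) := by
    intro P hP
    rw [hz, P.ord_mul (zpow_ne_zero _ hX0) hu0, P.ord_zpow, hXS P hP]
    ring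
  have hzpole : ∀ P ∈ S, 0 ≤ P.ord z := fun P hP => by
    rw [hzS P hP]
    exact hpole P hP
  -- the element `y := (X / π) ^ (-a) * w` of `V₂`
  have hXπ0 : X * (algebraMap L F π)⁻¹ ≠ 0 := mul_ne_zero hX0 (inv_ne_zero hπF)
  have hXπi : (X * (algebraMap L F π)⁻¹)⁻¹ ∈ V₂ := hinv₂ ⟨_, hX₂⟩ hXunit
  have hXπa : (X * (algebraMap L F π)⁻¹) ^ (-a) ∈ V₂ := na_zpow_mem V₂ hX₂ hXπi (-a)
  set y : F := (X * (algebraMap L F π)⁻¹) ^ (-a) * (w : F) with hy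
  have hy₂ : y ∈ V₂ := V₂.mul_mem hXπa w.2
  set t : L := π ^ a * c with ht
  have ht0 : t ≠ 0 := mul_ne_zero (zpow_ne_zero _ hπ0) hc0
  -- `y = t z`
  have hyz : y = algebraMap L F t * z := by
    rw [hy, hz, hwu, ht, map_mul, map_zpow₀, mul_zpow, inv_zpow', neg_neg]
    ring
  have hzy : z = algebraMap L F t⁻¹ * y := by
    rw [hyz, ← mul_assoc, ← map_mul, inv_mul_cancel₀ ht0, map_one, one_mul]
  -- the key contradiction: `z ∈ V₂` with glued value `0`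
  have key : ∀ (h0 : z ∈ V₂), (∃ κ : IsLocalRing.ResidueField A,
      red₁ ⟨z, hz₁⟩ - algebraMap _ F₁ κ ∈ Q₁.toValuationSubring.nonunits ∧ κ = 0) → False := by
    rintro h0 ⟨κ, h1, rfl⟩
    rw [map_zero, sub_zero] at h1
    rcases (nb_mem_nonunits_iff Q₁ _).mp h1 with h2 | h2
    · exact hredz0 h2
    · rw [hordz] at h2
      exact absurd h2 (by norm_num)
  have hle : t ∈ A := by
    by_contra htA
    have hti : t⁻¹ ∈ A := (A.mem_or_inv_mem t).resolve_left htA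
    have htin : t⁻¹ ∈ A.nonunits := by
      rw [A.mem_nonunits_iff_or]
      right
      rw [inv_inv]
      exact htA
    have hz₂ : z ∈ V₂ := by
      rw [hzy]
      exact V₂.mul_mem (hconst₂ _ hti) hy₂
    obtain ⟨κ, h1, h2, -⟩ := hart z hz₁ hz₂ hzpole
    have hredz₂ : red₂ ⟨z, hz₂⟩ = 0 := by
      have e : (⟨z, hz₂⟩ : V₂) = ⟨algebraMap L F t⁻¹, hconst₂ _ hti⟩ * ⟨y, hy₂⟩ :=
        Subtype.ext hzy
      have hres : IsLocalRing.residue A (⟨t⁻¹, hti⟩ : A) = 0 := by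
        rw [IsLocalRing.residue_eq_zero_iff, ← A.coe_mem_nonunits_iff]
        exact htin
      rw [e, map_mul, hred₂ ⟨t⁻¹, hti⟩ (hconst₂ _ hti), hres, map_zero, zero_mul]
    rw [hredz₂, zero_sub] at h2
    have h3 : algebraMap (IsLocalRing.ResidueField A) F₂ κ ∈ Q₂.toValuationSubring.nonunits := by
      have := Q₂.toValuationSubring.nonunits.neg_mem h2
      rwa [neg_neg] at this
    have hκ : κ = 0 := nb_const_eq_zero_of_mem_nonunits Q₂ h3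
    exact key hz₂ ⟨κ, h1, hκ⟩
  refine ⟨hle, ?_⟩
  rintro ⟨P₀, hP₀, hpos⟩
  by_contra htn
  have hti : t⁻¹ ∈ A := by
    by_contra h
    apply htn
    rw [A.mem_nonunits_iff_or]
    exact Or.inr h
  have hz₂ : z ∈ V₂ := by
    rw [hzy]
    exact V₂.mul_mem (hconst₂ _ hti) hy₂
  obtain ⟨κ, h1, -, h3⟩ := hart z hz₁ hz₂ hzpole
  have hκ : κ = 0 := h3 ⟨P₀, hP₀, by rw [hzS P₀ hP₀]; exact hpos⟩
  exact key hz₂ ⟨κ, h1, hκ⟩

end OneSided

/-! ## The node fields of `NodalRvHyp` -/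

section Nodal

open Fermat.Agent.H72.FF

variable {N : ℕ} {A : ValuationSubring Qb} {Foo F0 : Type} [Field Foo] [Field F0]
  [Algebra (kRes A) Foo] [Algebra (kRes A) F0] {ι : Type}

/-- **Hartogs at the node `ν`** (glued-value form): a function which is integral at both Gauss
valuations and has no pole at the places specialising to `ν` has a value `κ` at `ν`, common to
both branches; the value is `0` if the function has a zero at a place specialising to `ν`. -/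
def HartogsAt (G : NodalData N A Foo F0 ι) (ν : ι) : Prop :=
  ∀ (z : FLb N) (h : z ∈ G.Voo) (h0 : z ∈ G.V0),
    (∀ P, G.r P = NPt.node ν → 0 ≤ P.ord z) →
    ∃ κ : kRes A,
      G.redOo ⟨z, h⟩ - algebraMap (kRes A) Foo κ ∈ (G.nOo ν).toValuationSubring.nonunits ∧
      G.red0 ⟨z, h0⟩ - algebraMap (kRes A) F0 κ ∈ (G.n0 ν).toValuationSubring.nonunits ∧
      ((∃ P, G.r P = NPt.node ν ∧ 0 < P.ord z) → κ = 0)

/-- The coordinate `X` at the node `ν` on the side of `C_∞` (`X Y = p · unit`): no zero or pole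
at the places specialising to `ν`, `red_∞ X` a uniformiser at the branch on `C_∞`, `X / p` a
unit of `V_0`. -/
structure IsNodeCoordOo (p : ℕ) (G : NodalData N A Foo F0 ι) (ν : ι) (X : FLb N) : Prop where
  ord_zero : ∀ P, G.r P = NPt.node ν → P.ord X = 0
  simple : ∃ h : X ∈ G.Voo, (G.nOo ν).ord (G.redOo ⟨X, h⟩) = 1
  unit : ∃ h : X * (algebraMap Qb (FLb N) (p : Qb))⁻¹ ∈ G.V0, G.red0 ⟨_, h⟩ ≠ 0

/-- The coordinate `Y` at the node `ν` on the side of `C_0`. -/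
structure IsNodeCoordZero (p : ℕ) (G : NodalData N A Foo F0 ι) (ν : ι) (Y : FLb N) : Prop where
  ord_zero : ∀ P, G.r P = NPt.node ν → P.ord Y = 0
  simple : ∃ h : Y ∈ G.V0, (G.n0 ν).ord (G.red0 ⟨Y, h⟩) = 1
  unit : ∃ h : Y * (algebraMap Qb (FLb N) (p : Qb))⁻¹ ∈ G.Voo, G.redOo ⟨_, h⟩ ≠ 0

variable {p : ℕ} {G : NodalData N A Foo F0 ι}

/-- **(M3)** `node_le` and `node_lt` at the node `ν`, from Hartogs and the two coordinates. -/
theorem node_slopes (hp : p ≠ 0)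
    (const_oo : ∀ c : Qb, c ∈ A → algebraMap Qb (FLb N) c ∈ G.Voo)
    (const_zero : ∀ c : Qb, c ∈ A → algebraMap Qb (FLb N) c ∈ G.V0)
    (red_const_oo : ∀ (c : A) (h : algebraMap Qb (FLb N) (c : Qb) ∈ G.Voo),
      G.redOo ⟨_, h⟩ = algebraMap (kRes A) Foo (IsLocalRing.residue A c))
    (red_const_zero : ∀ (c : A) (h : algebraMap Qb (FLb N) (c : Qb) ∈ G.V0),
      G.red0 ⟨_, h⟩ = algebraMap (kRes A) F0 (IsLocalRing.residue A c))
    (inv_oo : ∀ u : G.Voo, G.redOo u ≠ 0 → (u : FLb N)⁻¹ ∈ G.Voo)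
    (inv_zero : ∀ u : G.V0, G.red0 u ≠ 0 → (u : FLb N)⁻¹ ∈ G.V0)
    (ν : ι) (hH : HartogsAt G ν) {X Y : FLb N} (hX : IsNodeCoordOo p G ν X)
    (hY : IsNodeCoordZero p G ν Y)
    (u : G.Voo) (w : G.V0) (c : Qb) (hu : G.redOo u ≠ 0) (hw : G.red0 w ≠ 0)
    (hwu : (w : FLb N) = algebraMap Qb (FLb N) c * (u : FLb N))
    (hpole : ∀ P, G.r P = NPt.node ν → 0 ≤ P.ord (u : FLb N)) :
    ((p : Qb) ^ ((G.nOo ν).ord (G.redOo u)) * c ∈ A ∧
      (p : Qb) ^ ((G.n0 ν).ord (G.red0 w)) * c⁻¹ ∈ A) ∧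
    ((∃ P, G.r P = NPt.node ν ∧ 0 < P.ord (u : FLb N)) →
      (p : Qb) ^ ((G.nOo ν).ord (G.redOo u)) * c ∈ A.nonunits ∧
      (p : Qb) ^ ((G.n0 ν).ord (G.red0 w)) * c⁻¹ ∈ A.nonunits) := by
  have hp0 : (p : Qb) ≠ 0 := Nat.cast_ne_zero.mpr hp
  have hu0 : (u : FLb N) ≠ 0 := by
    intro h
    apply hu
    have : u = 0 := Subtype.ext h
    rw [this, map_zero]
  have hw0 : (w : FLb N) ≠ 0 := by
    intro h
    apply hw
    have : w = 0 := Subtype.ext h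
    rw [this, map_zero]
  have hc0 : c ≠ 0 := by
    rintro rfl
    rw [map_zero, zero_mul] at hwu
    exact hw0 hwu
  have hcF : algebraMap Qb (FLb N) c ≠ 0 := by
    rw [Ne, map_eq_zero_iff _ (algebraMap Qb (FLb N)).injective]
    exact hc0
  -- `u = c⁻¹ w`
  have huw : (u : FLb N) = algebraMap Qb (FLb N) c⁻¹ * (w : FLb N) := by
    rw [hwu, ← mul_assoc, ← map_mul, inv_mul_cancel₀ hc0, map_one, one_mul]
  have hordw : ∀ P : Place Qb (FLb N), P.ord (w : FLb N) = P.ord (u : FLb N) := by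
    intro P
    rw [hwu]
    exact nb_ord_const_mul P hc0 _
  obtain ⟨hX₁, hXs⟩ := hX.simple
  obtain ⟨hX₂, hXu⟩ := hX.unit
  obtain ⟨hY₁, hYs⟩ := hY.simple
  obtain ⟨hY₂, hYu⟩ := hY.unit
  -- side `∞`
  have h1 := node_slope_oneSided (A := A) G.Voo G.V0 G.redOo G.red0 (G.nOo ν) (G.n0 ν)
    {P | G.r P = NPt.node ν} (p : Qb) hp0 const_zero red_const_zero inv_oo inv_zero
    (fun z h h0 hz => by
      obtain ⟨κ, a1, a2, a3⟩ := hH z h h0 hz
      exact ⟨κ, a1, a2, fun ⟨P, hP, hpos⟩ => a3 ⟨P, hP, hpos⟩⟩)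
    X hX.ord_zero hX₁ hXs hX₂ hXu u w c hu hw hwu hpole
  -- side `0`
  have h2 := node_slope_oneSided (A := A) G.V0 G.Voo G.red0 G.redOo (G.n0 ν) (G.nOo ν)
    {P | G.r P = NPt.node ν} (p : Qb) hp0 const_oo red_const_oo inv_zero inv_oo
    (fun z h h0 hz => by
      obtain ⟨κ, a1, a2, a3⟩ := hH z h0 h hz
      exact ⟨κ, a2, a1, fun ⟨P, hP, hpos⟩ => a3 ⟨P, hP, hpos⟩⟩)
    Y hY.ord_zero hY₁ hYs hY₂ hYu w u c⁻¹ hw hu huw
    (fun P hP => by rw [hordw P]; exact hpole P hP)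
  refine ⟨⟨h1.1, h2.1⟩, ?_⟩
  rintro ⟨P, hP, hpos⟩
  exact ⟨h1.2 ⟨P, hP, hpos⟩, h2.2 ⟨P, hP, by rw [hordw P]; exact hpos⟩⟩

/-- **(M4)** `glue` at the node `ν`, from Hartogs. -/
theorem node_glue
    (inv_oo : ∀ u : G.Voo, G.redOo u ≠ 0 → (u : FLb N)⁻¹ ∈ G.Voo)
    (inv_zero : ∀ u : G.V0, G.red0 u ≠ 0 → (u : FLb N)⁻¹ ∈ G.V0)
    (ν : ι) (hH : HartogsAt G ν)
    (u : FLb N) (hu : u ∈ G.Voo) (hu0 : u ∈ G.V0)
    (hr : G.redOo ⟨u, hu⟩ ≠ 0) (hr0 : G.red0 ⟨u, hu0⟩ ≠ 0)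
    (hord : ∀ P, G.r P = NPt.node ν → P.ord u = 0) :
    ∃ κ : kRes A, κ ≠ 0 ∧
      G.redOo ⟨u, hu⟩ - algebraMap (kRes A) Foo κ ∈ (G.nOo ν).toValuationSubring.nonunits ∧
      G.red0 ⟨u, hu0⟩ - algebraMap (kRes A) F0 κ ∈ (G.n0 ν).toValuationSubring.nonunits := by
  have hune : u ≠ 0 := by
    intro h
    apply hr
    have : (⟨u, hu⟩ : G.Voo) = 0 := Subtype.ext h
    rw [this, map_zero]
  have hi : u⁻¹ ∈ G.Voo := inv_oo ⟨u, hu⟩ hr
  have hi0 : u⁻¹ ∈ G.V0 := inv_zero ⟨u, hu0⟩ hr0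
  obtain ⟨κ, h1, h2, -⟩ := hH u hu hu0 (fun P hP => by rw [hord P hP])
  obtain ⟨κ', h1', -, -⟩ := hH u⁻¹ hi hi0 (fun P hP => by rw [Place.ord_inv, hord P hP, neg_zero])
  refine ⟨κ, ?_, h1, h2⟩
  rintro rfl
  rw [map_zero, sub_zero] at h1
  -- `red u ∈ 𝔪`, `red u⁻¹ ∈ O`, product `= 1`
  set Q := (G.nOo ν).toValuationSubring with hQ
  have hmul : G.redOo ⟨u, hu⟩ * G.redOo ⟨u⁻¹, hi⟩ = 1 := by
    rw [← map_mul]
    have : (⟨u, hu⟩ : G.Voo) * ⟨u⁻¹, hi⟩ = 1 := Subtype.ext (mul_inv_cancel₀ hune)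
    rw [this, map_one]
  have hmem : G.redOo ⟨u⁻¹, hi⟩ ∈ Q := by
    have h3 : G.redOo ⟨u⁻¹, hi⟩ - algebraMap (kRes A) Foo κ' ∈ Q := Q.nonunits_subset h1'
    have h4 : algebraMap (kRes A) Foo κ' ∈ Q := (G.nOo ν).algebraMap_mem' κ'
    have := Q.add_mem _ _ h3 h4
    rwa [sub_add_cancel] at this
  have hone : (1 : Foo) ∈ Q.nonunits := by
    rw [← hmul]
    rw [Q.mem_nonunits_iff] at h1 ⊢
    rw [map_mul]
    have h5 : Q.valuation (G.redOo ⟨u⁻¹, hi⟩) ≤ 1 := (Q.valuation_le_one_iff _).mpr hmem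
    calc Q.valuation (G.redOo ⟨u, hu⟩) * Q.valuation (G.redOo ⟨u⁻¹, hi⟩)
        ≤ Q.valuation (G.redOo ⟨u, hu⟩) * 1 := by gcongr
      _ < 1 := by rw [mul_one]; exact h1
  rw [Q.mem_nonunits_iff, map_one] at hone
  exact lt_irrefl _ hone

end Nodal

end Fermat.Agent.H91.ORD

end
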