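/-
P-ORD, block B1, SPEC/NODE/M2 tool (helper91): **PLACE-OVER** = lifting of centres
(going down + Chevalley), Mathlib only.

Setting: `R` an integrally closed domain (a chart `B(j)` over a discrete valuation ring `A₁` of a
number field `K₁`), `R → E → F` fields (`E = K₁(X₀(N))`, `F = ℚ̄(X₀(N))`), `W` a valuation
subring of `F` containing `R` whose centre on `R` is the maximal ideal `𝔪` (the composite
valuation "Gauss valuation, then the point `Q` of the component"), `P ≤ 𝔪` a prime of `R` and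
`V = R_P` a valuation subring of `E` (a horizontal place through the closed point `𝔪`).

* `po_chain` : for primes `𝔓 ≤ 𝔐` (`𝔐` maximal) of a subring `S` of a field there are valuation
  subrings `O₂ ≤ O` with centres `𝔐`, `𝔓` on `S`;
* `po_exists_pair` : **PLACE-OVER**: valuation subrings `O₂ ≤ O` of `F` with `O ∩ E = V` and such
  that `O₂` has the same centre as `W` on the integral closure of `R` in `F`;
* `po_exists_integral_unit` : **Prüfer lemma**: a valuation subring `A` of an algebraic extension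
  `L / K` is a localisation of the integral closure of `A ∩ K`;
* `po_composite` : a valuation subring `O₂ ≤ O` with `O₂ ∩ L = A`, where `O ⊇ L` has residue field
  `L`, is the composite `{f ∈ O | f(P) ∈ A}`.
-/
import Mathlib

set_option autoImplicit false
set_option linter.unusedSectionVars false
set_option linter.style.haveILetI false
set_option linter.unusedVariables false

noncomputable section

namespace Fermat.Agent.H91.ORD

open IsLocalRing

section VS

variable {K : Type} [Field K]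

theorem po_nonunits_add {A : ValuationSubring K} {x y : K} (hx : x ∈ A.nonunits)
    (hy : y ∈ A.nonunits) : x + y ∈ A.nonunits := by
  rw [ValuationSubring.mem_nonunits_iff] at *
  exact lt_of_le_of_lt (A.valuation.map_add x y) (max_lt hx hy)

theorem po_nonunits_neg {A : ValuationSubring K} {x : K} (hx : x ∈ A.nonunits) :
    -x ∈ A.nonunits := by
  rw [ValuationSubring.mem_nonunits_iff] at *
  rwa [Valuation.map_neg]

theorem po_nonunits_sub {A : ValuationSubring K} {x y : K} (hx : x ∈ A.nonunits)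
    (hy : y ∈ A.nonunits) : x - y ∈ A.nonunits := by
  rw [sub_eq_add_neg]
  exact po_nonunits_add hx (po_nonunits_neg hy)

theorem po_nonunits_mem {A : ValuationSubring K} {x : K} (hx : x ∈ A.nonunits) : x ∈ A := by
  rw [ValuationSubring.mem_nonunits_iff] at hx
  exact (A.valuation_le_one_iff x).1 hx.le

theorem po_nonunits_mul_left {A : ValuationSubring K} {x y : K} (hx : x ∈ A)
    (hy : y ∈ A.nonunits) : x * y ∈ A.nonunits := by
  rw [ValuationSubring.mem_nonunits_iff] at *
  rw [map_mul]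
  have h1 : A.valuation x ≤ 1 := (A.valuation_le_one_iff x).2 hx
  calc A.valuation x * A.valuation y ≤ 1 * A.valuation y := mul_le_mul_left h1 _
    _ = A.valuation y := one_mul _
    _ < 1 := hy

theorem po_nonunits_mul_right {A : ValuationSubring K} {x y : K} (hx : x ∈ A.nonunits)
    (hy : y ∈ A) : x * y ∈ A.nonunits := by
  rw [mul_comm]
  exact po_nonunits_mul_left hy hx

theorem po_zero_mem_nonunits (A : ValuationSubring K) : (0 : K) ∈ A.nonunits := by
  rw [ValuationSubring.mem_nonunits_iff, map_zero]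
  exact zero_lt_one

theorem po_one_not_mem_nonunits (A : ValuationSubring K) : (1 : K) ∉ A.nonunits := by
  rw [ValuationSubring.mem_nonunits_iff, map_one]
  exact lt_irrefl 1

/-- an element of `A` whose inverse lies in `A` is not in the maximal ideal -/
theorem po_not_mem_nonunits_of_inv {A : ValuationSubring K} {x : K} (hx0 : x ≠ 0)
    (hinv : x⁻¹ ∈ A) : x ∉ A.nonunits := by
  intro hx
  have := po_nonunits_mul_left hinv hx
  rw [inv_mul_cancel₀ hx0] at this
  exact po_one_not_mem_nonunits A this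

/-- an element of `A` which is not in the maximal ideal is a unit -/
theorem po_inv_mem_of_not_mem_nonunits {A : ValuationSubring K} {x : K} (hx : x ∈ A)
    (hxn : x ∉ A.nonunits) : x⁻¹ ∈ A := by
  by_contra h
  apply hxn
  have h2 : (x⁻¹)⁻¹ ∈ A.nonunits := (ValuationSubring.inv_mem_nonunits_iff A).2 (Or.inr h)
  rwa [inv_inv] at h2

/-- **Domination between valuation subrings is equality.** -/
theorem po_eq_of_dominates {V V' : ValuationSubring K} (h : ∀ x ∈ V, x ∈ V')
    (hm : ∀ x ∈ V.nonunits, x ∈ V'.nonunits) : V = V' := by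
  refine le_antisymm h fun x hx => ?_
  by_contra hxV
  have hinv : x⁻¹ ∈ V.nonunits := (ValuationSubring.inv_mem_nonunits_iff V).2 (Or.inr hxV)
  have hx0 : x ≠ 0 := fun h0 => hxV (h0 ▸ V.zero_mem)
  have h1 := po_nonunits_mul_left hx (hm _ hinv)
  rw [mul_inv_cancel₀ hx0] at h1
  exact po_one_not_mem_nonunits V' h1

/-- a valuation subring containing the maximal ideal of `O` and avoiding... is contained in `O` -/
theorem po_le_of_nonunits_subset {O₂ O : ValuationSubring K}
    (h : ∀ x ∈ O.nonunits, x ∈ O₂.nonunits) : O₂ ≤ O := by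
  intro x hx
  by_contra hxO
  have hinv : x⁻¹ ∈ O.nonunits := (ValuationSubring.inv_mem_nonunits_iff O).2 (Or.inr hxO)
  have hx0 : x ≠ 0 := fun h0 => hxO (h0 ▸ O.zero_mem)
  have h1 := po_nonunits_mul_left hx (h _ hinv)
  rw [mul_inv_cancel₀ hx0] at h1
  exact po_one_not_mem_nonunits O₂ h1

/-- the maximal ideal in terms of inverses -/
theorem po_mem_nonunits_iff_inv {A : ValuationSubring K} {x : K} :
    x ∈ A.nonunits ↔ x = 0 ∨ x⁻¹ ∉ A := by
  have := ValuationSubring.inv_mem_nonunits_iff A (x := x⁻¹)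
  rw [inv_inv, inv_eq_zero] at this
  exact this

theorem po_mem_nonunits_comap {E : Type} [Field E] (f : E →+* K) (O : ValuationSubring K)
    (x : E) : x ∈ (O.comap f).nonunits ↔ f x ∈ O.nonunits := by
  rw [po_mem_nonunits_iff_inv, po_mem_nonunits_iff_inv, ValuationSubring.mem_comap, map_inv₀,
    map_eq_zero]

end VS


section Chevalley

variable {F : Type} [Field F]

/-- **Chevalley at a prime**: a valuation subring of `F` dominating the localisation of the
subring `S` at the prime `𝔓`. -/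
theorem po_exists_dominating (S : Subring F) (𝔓 : Ideal S) [h𝔓 : 𝔓.IsPrime] :
    ∃ O : ValuationSubring F, (∀ x ∈ S, x ∈ O) ∧ ∀ x : S, (x : F) ∈ O.nonunits ↔ x ∈ 𝔓 := by
  obtain ⟨O, hle, hloc⟩ := (LocalSubring.ofPrime S 𝔓).exists_le_valuationSubring
  have hSO : ∀ x ∈ S, x ∈ O := fun x hx => hle (LocalSubring.le_ofPrime S 𝔓 hx)
  refine ⟨O, hSO, fun x => ⟨fun hx => ?_, fun hx => ?_⟩⟩
  · by_contra hxP
    -- `x` is a unit of the localisation, hence of `O`
    have hu : IsUnit (algebraMap S (LocalSubring.ofPrime S 𝔓).toSubring x) :=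
      IsLocalization.map_units (M := 𝔓.primeCompl) _ ⟨x, hxP⟩
    have hu2 : IsUnit (Subring.inclusion hle (algebraMap S (LocalSubring.ofPrime S 𝔓).toSubring x)) :=
      hu.map _
    obtain ⟨y, hy⟩ := isUnit_iff_exists_inv.1 hu2
    have hy' : (x : F) * (y : F) = 1 := congrArg Subtype.val hy
    have hx0 : (x : F) ≠ 0 := left_ne_zero_of_mul_eq_one hy'
    have hinv : (x : F)⁻¹ ∈ O := by
      have : (x : F)⁻¹ = (y : F) := by
        rw [inv_eq_iff_eq_inv]
        exact (eq_inv_of_mul_eq_one_left hy')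
      rw [this]
      exact y.2
    exact po_not_mem_nonunits_of_inv hx0 hinv hx
  · by_contra hxn
    have hxO : (x : F) ∈ O := hSO _ x.2
    have hinv : (x : F)⁻¹ ∈ O := po_inv_mem_of_not_mem_nonunits hxO hxn
    have hx0 : (x : F) ≠ 0 := by
      intro h0
      apply hxn
      rw [h0]
      exact po_zero_mem_nonunits O
    -- the image of `x` in `O` is a unit, so `x` is a unit of the localisation
    have hu2 : IsUnit (Subring.inclusion hle
        (algebraMap S (LocalSubring.ofPrime S 𝔓).toSubring x)) := by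
      rw [isUnit_iff_exists_inv]
      exact ⟨⟨(x : F)⁻¹, hinv⟩, Subtype.ext (mul_inv_cancel₀ hx0)⟩
    have hu : IsUnit (algebraMap S (LocalSubring.ofPrime S 𝔓).toSubring x) :=
      hloc.map_nonunit _ hu2
    have hmem : algebraMap S (LocalSubring.ofPrime S 𝔓).toSubring x ∈
        maximalIdeal (LocalSubring.ofPrime S 𝔓).toSubring :=
      (IsLocalization.AtPrime.to_map_mem_maximal_iff _ 𝔓 x).2 hx
    exact (IsLocalRing.mem_maximalIdeal _).1 hmem hu

end Chevalley


section Chain

variable {F : Type} [Field F]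

/-- the subring `S + 𝔪_O` of `F` (for `S ⊆ O`) -/
def poSum (S : Subring F) (O : ValuationSubring F) (hSO : ∀ x ∈ S, x ∈ O) : Subring F where
  carrier := {x | ∃ a ∈ S, x - a ∈ O.nonunits}
  mul_mem' := by
    rintro x y ⟨a, ha, hxa⟩ ⟨b, hb, hyb⟩
    refine ⟨a * b, S.mul_mem ha hb, ?_⟩
    have hy : y ∈ O := by
      have : y = (y - b) + b := by ring
      rw [this]
      exact O.add_mem _ _ (po_nonunits_mem hyb) (hSO b hb)
    have e : x * y - a * b = (x - a) * y + a * (y - b) := by ring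
    rw [e]
    exact po_nonunits_add (po_nonunits_mul_right hxa hy) (po_nonunits_mul_left (hSO a ha) hyb)
  one_mem' := ⟨1, S.one_mem, by rw [sub_self]; exact po_zero_mem_nonunits O⟩
  add_mem' := by
    rintro x y ⟨a, ha, hxa⟩ ⟨b, hb, hyb⟩
    refine ⟨a + b, S.add_mem ha hb, ?_⟩
    have e : x + y - (a + b) = (x - a) + (y - b) := by ring
    rw [e]
    exact po_nonunits_add hxa hyb
  zero_mem' := ⟨0, S.zero_mem, by rw [sub_self]; exact po_zero_mem_nonunits O⟩
  neg_mem' := by
    rintro x ⟨a, ha, hxa⟩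
    refine ⟨-a, S.neg_mem ha, ?_⟩
    have e : -x - -a = -(x - a) := by ring
    rw [e]
    exact po_nonunits_neg hxa

theorem po_mem_poSum {S : Subring F} {O : ValuationSubring F} {hSO : ∀ x ∈ S, x ∈ O} {x : F} :
    x ∈ poSum S O hSO ↔ ∃ a ∈ S, x - a ∈ O.nonunits := Iff.rfl

theorem po_poSum_le (S : Subring F) (O : ValuationSubring F) (hSO : ∀ x ∈ S, x ∈ O) :
    ∀ x ∈ poSum S O hSO, x ∈ O := by
  rintro x ⟨a, ha, hxa⟩
  have : x = (x - a) + a := by ring
  rw [this]
  exact O.add_mem _ _ (po_nonunits_mem hxa) (hSO a ha)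

/-- the ideal `𝔐 + 𝔪_O` of `S + 𝔪_O` -/
def poSumIdeal (S : Subring F) (O : ValuationSubring F) (hSO : ∀ x ∈ S, x ∈ O)
    (𝔐 : Ideal S) : Ideal (poSum S O hSO) where
  carrier := {x | ∃ a : S, a ∈ 𝔐 ∧ (x : F) - (a : F) ∈ O.nonunits}
  add_mem' := by
    rintro x y ⟨a, ha, hxa⟩ ⟨b, hb, hyb⟩
    refine ⟨a + b, 𝔐.add_mem ha hb, ?_⟩
    have e : ((x + y : poSum S O hSO) : F) - ((a + b : S) : F)
        = ((x : F) - (a : F)) + ((y : F) - (b : F)) := by
      push_cast
      ring
    rw [e]
    exact po_nonunits_add hxa hyb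
  zero_mem' := ⟨0, 𝔐.zero_mem, by
    have e : ((0 : poSum S O hSO) : F) - ((0 : S) : F) = 0 := by
      push_cast
      ring
    rw [e]
    exact po_zero_mem_nonunits O⟩
  smul_mem' := by
    rintro ⟨t, b, hb, htb⟩ x ⟨a, ha, hxa⟩
    refine ⟨⟨b, hb⟩ * a, 𝔐.mul_mem_left _ ha, ?_⟩
    have hx : (x : F) ∈ O := po_poSum_le S O hSO _ x.2
    have e : (((⟨t, b, hb, htb⟩ : poSum S O hSO) • x : poSum S O hSO) : F)
        - (((⟨b, hb⟩ : S) * a : S) : F)
        = (t - b) * (x : F) + b * ((x : F) - (a : F)) := by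
      simp only [smul_eq_mul]
      push_cast
      ring
    rw [e]
    exact po_nonunits_add (po_nonunits_mul_right htb hx) (po_nonunits_mul_left (hSO b hb) hxa)

/-- **Chains of centres**: for primes `𝔓 ≤ 𝔐` of a subring `S` of a field, `𝔐` maximal, there
are valuation subrings `O₂ ≤ O` with centres `𝔐`, `𝔓` on `S`. -/
theorem po_chain (S : Subring F) (𝔓 𝔐 : Ideal S) [h𝔓 : 𝔓.IsPrime] (h𝔐 : 𝔐.IsMaximal)
    (hle : 𝔓 ≤ 𝔐) :
    ∃ O O₂ : ValuationSubring F, O₂ ≤ O ∧ (∀ x ∈ S, x ∈ O₂) ∧
      (∀ x : S, (x : F) ∈ O.nonunits ↔ x ∈ 𝔓) ∧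
      (∀ x : S, (x : F) ∈ O₂.nonunits ↔ x ∈ 𝔐) := by
  obtain ⟨O, hSO, hO⟩ := po_exists_dominating S 𝔓
  have hI : poSumIdeal S O hSO 𝔐 ≠ ⊤ := by
    intro htop
    have h1 : (1 : poSum S O hSO) ∈ poSumIdeal S O hSO 𝔐 := by rw [htop]; trivial
    obtain ⟨a, ha, h1a⟩ := h1
    have h2 : (((1 - a : S)) : F) ∈ O.nonunits := by
      have e : (((1 - a : S)) : F) = ((1 : poSum S O hSO) : F) - (a : F) := by
        push_cast
        ring
      rw [e]
      exact h1a
    have h3 : (1 - a : S) ∈ 𝔐 := hle ((hO _).1 h2)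
    have h4 : (1 : S) ∈ 𝔐 := by
      have : (1 : S) = (1 - a) + a := by ring
      rw [this]
      exact 𝔐.add_mem h3 ha
    exact h𝔐.ne_top ((Ideal.eq_top_iff_one _).2 h4)
  obtain ⟨O₂, hT, hIn⟩ := Ideal.image_subset_nonunits_valuationSubring _ hI
  have hmO : ∀ x ∈ O.nonunits, x ∈ O₂.nonunits := by
    intro x hx
    have hxT : x ∈ poSum S O hSO := ⟨0, S.zero_mem, by rwa [sub_zero]⟩
    apply hIn
    refine ⟨⟨x, hxT⟩, ⟨0, 𝔐.zero_mem, ?_⟩, rfl⟩
    show x - ((0 : S) : F) ∈ O.nonunits
    rw [Subring.coe_zero, sub_zero]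
    exact hx
  have hST : ∀ x ∈ S, x ∈ poSum S O hSO := fun x hx =>
    ⟨x, hx, by rw [sub_self]; exact po_zero_mem_nonunits O⟩
  have hSO₂ : ∀ x ∈ S, x ∈ O₂ := fun x hx => hT (hST x hx)
  have h𝔐n : ∀ x : S, x ∈ 𝔐 → (x : F) ∈ O₂.nonunits := by
    intro x hx
    apply hIn
    refine ⟨⟨x, hST _ x.2⟩, ⟨x, hx, ?_⟩, rfl⟩
    show (x : F) - (x : F) ∈ O.nonunits
    rw [sub_self]
    exact po_zero_mem_nonunits O
  refine ⟨O, O₂, po_le_of_nonunits_subset hmO, hSO₂, hO, fun x => ⟨fun hx => ?_, h𝔐n x⟩⟩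
  -- the centre of `O₂` on `S` is a proper ideal containing `𝔐`
  let J : Ideal S :=
    { carrier := {y | (y : F) ∈ O₂.nonunits}
      add_mem' := fun {a b} ha hb => by
        show ((a + b : S) : F) ∈ O₂.nonunits
        rw [Subring.coe_add]
        exact po_nonunits_add ha hb
      zero_mem' := by
        show ((0 : S) : F) ∈ O₂.nonunits
        rw [Subring.coe_zero]
        exact po_zero_mem_nonunits O₂
      smul_mem' := fun c a ha => by
        show ((c • a : S) : F) ∈ O₂.nonunits
        rw [smul_eq_mul, Subring.coe_mul]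
        exact po_nonunits_mul_left (hSO₂ _ c.2) ha }
  have hJ : 𝔐 ≤ J := fun y hy => h𝔐n y hy
  have hJtop : J ≠ ⊤ := by
    intro htop
    have h1 : (1 : S) ∈ J := by rw [htop]; trivial
    have h1' : ((1 : S) : F) ∈ O₂.nonunits := h1
    rw [Subring.coe_one] at h1'
    exact po_one_not_mem_nonunits O₂ h1'
  have hJeq : 𝔐 = J := h𝔐.eq_of_le hJtop hJ
  rw [hJeq]
  exact hx

end Chain


section PlaceOver

variable {R E F : Type} [CommRing R] [Field E] [Field F] [Algebra R E] [Algebra E F]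
  [Algebra R F] [IsScalarTower R E F]

/-- an element integral over `R` lies in every valuation subring containing `R` -/
theorem po_integral_mem (W : ValuationSubring F) (hRW : ∀ r : R, algebraMap R F r ∈ W)
    {s : F} (hs : IsIntegral R s) : s ∈ W := by
  let φ : R →+* W := (algebraMap R F).codRestrict W.toSubring hRW
  obtain ⟨p, hp, hps⟩ := hs
  have h1 : IsIntegral W s := by
    refine ⟨p.map φ, hp.map φ, ?_⟩
    rw [Polynomial.eval₂_map]
    have : (algebraMap W F).comp φ = algebraMap R F := by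
      ext r
      rfl
    rw [this]
    exact hps
  obtain ⟨y, hy⟩ := (IsIntegrallyClosed.isIntegral_iff (R := W) (K := F)).1 h1
  rw [← hy]
  exact y.2

variable [IsDomain R] [IsIntegrallyClosed R]

/-- **PLACE-OVER** (going down + Chevalley).  `R` an integrally closed domain, `R ⊆ E ⊆ F`
fields, `W` a valuation subring of `F` containing `R` with centre the maximal ideal `𝔪` of `R`,
`P ≤ 𝔪` a prime of `R` such that `V = R_P` is a valuation subring of `E`.  Then there are
valuation subrings `O₂ ≤ O` of `F` with `O ∩ E = V` such that `O₂` contains the integral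
closure of `R` in `F` and has the same centre on it as `W`. -/
theorem po_exists_pair (hinj : Function.Injective (algebraMap R F))
    (W : ValuationSubring F) (hRW : ∀ r : R, algebraMap R F r ∈ W)
    (𝔪 : Ideal R) (h𝔪 : 𝔪.IsMaximal) (hW𝔪 : ∀ r : R, algebraMap R F r ∈ W.nonunits ↔ r ∈ 𝔪)
    (P : Ideal R) [hP : P.IsPrime] (hP𝔪 : P ≤ 𝔪)
    (V : ValuationSubring E)
    (hV : ∀ x : E, x ∈ V ↔ ∃ s : R, s ∉ P ∧ algebraMap R E s * x ∈ (algebraMap R E).range) :
    ∃ O O₂ : ValuationSubring F, O₂ ≤ O ∧ (∀ x : E, algebraMap E F x ∈ O ↔ x ∈ V) ∧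
      (∀ s : F, IsIntegral R s → s ∈ O₂ ∧ (s ∈ O₂.nonunits ↔ s ∈ W.nonunits)) := by
  classical
  have hinjE : Function.Injective (algebraMap R E) := by
    intro a b hab
    apply hinj
    rw [IsScalarTower.algebraMap_apply R E F, IsScalarTower.algebraMap_apply R E F, hab]
  -- the integral closure and its map to `W`
  let S : Subalgebra R F := integralClosure R F
  have hSW : ∀ s : S, (s : F) ∈ W := fun s => po_integral_mem W hRW s.2
  let φ : S →+* W := (S.val : S →+* F).codRestrict W.toSubring hSW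
  let 𝔐 : Ideal S := (maximalIdeal W).comap φ
  have h𝔐mem : ∀ s : S, s ∈ 𝔐 ↔ (s : F) ∈ W.nonunits := by
    intro s
    show φ s ∈ maximalIdeal W ↔ _
    rw [← ValuationSubring.coe_mem_nonunits_iff]
    rfl
  haveI h𝔐p : 𝔐.IsPrime := Ideal.comap_isPrime φ _
  have hunder : 𝔐.under R = 𝔪 := by
    ext r
    rw [Ideal.under_def, Ideal.mem_comap, h𝔐mem]
    exact hW𝔪 r
  haveI : 𝔪.IsPrime := h𝔪.isPrime
  haveI : 𝔐.LiesOver 𝔪 := ⟨hunder.symm⟩
  haveI : FaithfulSMul R S :=
    (faithfulSMul_iff_algebraMap_injective R S).mpr (by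
      intro a b hab
      apply hinj
      exact congrArg Subtype.val hab)
  haveI : Algebra.IsIntegral R S := inferInstance
  obtain ⟨𝔓, h𝔓le, h𝔓p, h𝔓lo⟩ := Ideal.exists_ideal_le_liesOver_of_le (p := P) (q := 𝔪) 𝔐 hP𝔪
  have h𝔐max : 𝔐.IsMaximal := by
    apply Ideal.isMaximal_of_isIntegral_of_isMaximal_comap (R := R) 𝔐
    have : Ideal.comap (algebraMap R S) 𝔐 = 𝔪 := hunder
    rw [this]
    exact h𝔪
  have h𝔓under : ∀ r : R, algebraMap R S r ∈ 𝔓 ↔ r ∈ P := by
    intro r
    have := h𝔓lo.over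
    rw [this, Ideal.under_def, Ideal.mem_comap]
  -- transport to the subring
  let e : S.toSubring →+* S := (S.toSubring.subtype).codRestrict S (fun x => x.2)
  have he : Function.Surjective e := fun x => ⟨⟨x.1, x.2⟩, rfl⟩
  haveI : (𝔓.comap e).IsPrime := Ideal.comap_isPrime e _
  have hmax' : (𝔐.comap e).IsMaximal := Ideal.comap_isMaximal_of_surjective e he
  obtain ⟨O, O₂, hle, hSO₂, hO, hO₂⟩ := po_chain S.toSubring (𝔓.comap e) (𝔐.comap e) hmax'
    (Ideal.comap_mono h𝔓le)
  have hSO : ∀ x ∈ S, x ∈ O := fun x hx => hle (hSO₂ x hx)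
  have hOmem : ∀ s : S, (s : F) ∈ O.nonunits ↔ s ∈ 𝔓 := fun s => hO ⟨s.1, s.2⟩
  have hO₂mem : ∀ s : S, (s : F) ∈ O₂.nonunits ↔ s ∈ 𝔐 := fun s => hO₂ ⟨s.1, s.2⟩
  have hRS : ∀ r : R, algebraMap R F r ∈ S := fun r => (algebraMap R S r).2
  -- units of `O` coming from `R ∖ P`
  have hunit : ∀ s : R, s ∉ P → (algebraMap R F s)⁻¹ ∈ O := by
    intro s hs
    apply po_inv_mem_of_not_mem_nonunits (hSO _ (hRS s))
    intro hn
    exact hs ((h𝔓under s).1 ((hOmem (algebraMap R S s)).1 hn))
  have hnon : ∀ r : R, r ∈ P → algebraMap R F r ∈ O.nonunits := fun r hr =>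
    (hOmem (algebraMap R S r)).2 ((h𝔓under r).2 hr)
  have hne : ∀ s : R, s ∉ P → algebraMap R E s ≠ 0 := by
    intro s hs h0
    apply hs
    have : s = 0 := hinjE (by rw [h0, map_zero])
    rw [this]
    exact P.zero_mem
  have key : ∀ x : E, x ∈ V → ∃ s r : R, s ∉ P ∧
      algebraMap E F x = algebraMap R F r * (algebraMap R F s)⁻¹ ∧
      algebraMap R E s * x = algebraMap R E r := by
    intro x hx
    obtain ⟨s, hs, r, hr⟩ := (hV x).1 hx
    refine ⟨s, r, hs, ?_, hr.symm⟩
    have hs0 : algebraMap R F s ≠ 0 := by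
      rw [IsScalarTower.algebraMap_apply R E F]
      exact (map_ne_zero (algebraMap E F)).2 (hne s hs)
    rw [eq_mul_inv_iff_mul_eq₀ hs0, IsScalarTower.algebraMap_apply R E F r, hr,
      IsScalarTower.algebraMap_apply R E F s, map_mul]
    ring
  have hVO : V = O.comap (algebraMap E F) := by
    apply po_eq_of_dominates
    · intro x hx
      rw [ValuationSubring.mem_comap]
      obtain ⟨s, r, hs, hxe, -⟩ := key x hx
      rw [hxe]
      exact O.mul_mem _ _ (hSO _ (hRS r)) (hunit s hs)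
    · intro x hx
      have hxV : x ∈ V := po_nonunits_mem hx
      obtain ⟨s, r, hs, hxe, hsr⟩ := key x hxV
      have hrP : r ∈ P := by
        by_contra hrP
        have hr0 : algebraMap R E r ≠ 0 := hne r hrP
        have hx0 : x ≠ 0 := by
          intro h0
          rw [h0, mul_zero] at hsr
          exact hr0 hsr.symm
        have hinvV : x⁻¹ ∈ V := by
          rw [hV]
          refine ⟨r, hrP, s, ?_⟩
          rw [← hsr]
          field_simp
        exact po_not_mem_nonunits_of_inv hx0 hinvV hx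
      have h1 : algebraMap E F x ∈ O.nonunits := by
        rw [hxe]
        exact po_nonunits_mul_right (hnon r hrP) (hunit s hs)
      exact (po_mem_nonunits_comap (algebraMap E F) O x).2 h1
  refine ⟨O, O₂, hle, fun x => ?_, fun s hs => ⟨hSO₂ s hs, ?_⟩⟩
  · rw [hVO, ValuationSubring.mem_comap]
  · rw [hO₂mem ⟨s, hs⟩, h𝔐mem]

end PlaceOver

end Fermat.Agent.H91.ORD

end
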