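/-
P-ORD, block B1, PLACE-OVER part B (helper91), Mathlib only:

* `po_exists_integral_unit` : **Prüfer lemma** over `ℤ`: every element `a` of a valuation
  subring `A` of a field algebraic over `ℚ` is `(s a) / s` with `s`, `s a` algebraic integers and
  `s` a unit of `A`;
* `po_centre_transfer` : two valuation subrings with the same centre on the integral closure `S`
  of `R` have the same centre on every `f` with a denominator in `S ∖ 𝔪_W`;
* `po_denom_subring` : the elements with such a denominator form a subring;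
* `po_composite` : a valuation subring `O₂ ≤ O` with `O₂ ∩ L = A`, where `O ⊇ L`, is the
  composite of `O` and `A` on the elements having a value in `L`.
-/
import Fermat.Agent.H91.ORD.PlaceOver

set_option autoImplicit false
set_option linter.unusedSectionVars false
set_option linter.unusedVariables false
set_option linter.style.haveILetI false

noncomputable section

namespace Fermat.Agent.H91.ORD

open Polynomial

section Pruefer

variable {L : Type} [Field L]

/-- an element lying in every valuation subring is integral over `ℤ` -/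
theorem po_isIntegral_int_of_forall_mem {x : L} (h : ∀ O : ValuationSubring L, x ∈ O) :
    IsIntegral ℤ x := by
  have h1 : x ∈ (⨅ V : {V : ValuationSubring L // (∅ : Set L) ⊆ V.toSubring}, V.1.toSubring) := by
    rw [Subring.mem_iInf]
    intro V
    exact h V.1
  rw [iInf_valuationSubring_superset] at h1
  have h2 : IsIntegral ↥(Subring.closure (∅ : Set L)) x := h1
  haveI : Algebra.IsIntegral ℤ ↥(Subring.closure (∅ : Set L)) := by
    apply Algebra.isIntegral_of_surjective
    rintro ⟨y, hy⟩
    rw [Subring.closure_empty] at hy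
    obtain ⟨n, hn⟩ := Subring.mem_bot.1 hy
    exact ⟨n, Subtype.ext (by simpa using hn)⟩
  exact isIntegral_trans x h2

theorem po_sum_mem_nonunits {ι : Type} (A : ValuationSubring L) (s : Finset ι) (f : ι → L)
    (h : ∀ i ∈ s, f i ∈ A.nonunits) : ∑ i ∈ s, f i ∈ A.nonunits := by
  classical
  induction s using Finset.induction_on with
  | empty => simp [po_zero_mem_nonunits A]
  | insert i s hi ih =>
    rw [Finset.sum_insert hi]
    exact po_nonunits_add (h i (Finset.mem_insert_self i s))
      (ih fun j hj => h j (Finset.mem_insert_of_mem hj))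

theorem po_intCast_mem (A : ValuationSubring L) (n : ℤ) : (n : L) ∈ A := intCast_mem A n

/-- the centre of a valuation subring on `ℤ` -/
def poIntCentre (A : ValuationSubring L) : Ideal ℤ where
  carrier := {n | (n : L) ∈ A.nonunits}
  add_mem' := fun {a b} ha hb => by
    show ((a + b : ℤ) : L) ∈ A.nonunits
    rw [Int.cast_add]
    exact po_nonunits_add ha hb
  zero_mem' := by
    show ((0 : ℤ) : L) ∈ A.nonunits
    rw [Int.cast_zero]
    exact po_zero_mem_nonunits A
  smul_mem' := fun c a ha => by
    show ((c • a : ℤ) : L) ∈ A.nonunits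
    rw [smul_eq_mul, Int.cast_mul]
    exact po_nonunits_mul_left (po_intCast_mem A c) ha

/-- a primitive integer polynomial has a coefficient which is a unit of `A` -/
theorem po_exists_coeff_unit (A : ValuationSubring L) {q : ℤ[X]} (hq : q.IsPrimitive) :
    ∃ i, ((q.coeff i : ℤ) : L) ∉ A.nonunits := by
  by_contra hcon
  push Not at hcon
  have hall : ∀ i, q.coeff i ∈ poIntCentre A := hcon
  obtain ⟨d, hd⟩ : ∃ d : ℤ, poIntCentre A = Ideal.span {d} :=
    ⟨_, (Ideal.span_singleton_generator (poIntCentre A)).symm⟩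
  have hdvd : C d ∣ q := by
    rw [C_dvd_iff_dvd_coeff]
    intro i
    have := hall i
    rw [hd, Ideal.mem_span_singleton] at this
    exact this
  have hu : IsUnit d := hq d hdvd
  have htop : poIntCentre A = ⊤ := by
    rw [hd]
    exact Ideal.span_singleton_eq_top.2 hu
  have h1 : (1 : ℤ) ∈ poIntCentre A := by rw [htop]; trivial
  have h1' : ((1 : ℤ) : L) ∈ A.nonunits := h1
  rw [Int.cast_one] at h1'
  exact po_one_not_mem_nonunits A h1'

theorem po_pow_mul_inv_pow {a : L} (ha0 : a ≠ 0) {j i : ℕ} (h : j ≤ i) :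
    a ^ j * (a⁻¹) ^ i = (a⁻¹) ^ (i - j) := by
  obtain ⟨k, rfl⟩ := Nat.exists_eq_add_of_le h
  rw [Nat.add_sub_cancel_left, pow_add, inv_pow, inv_pow]
  have h3 : a ^ j ≠ 0 := pow_ne_zero _ ha0
  have h4 : a ^ k ≠ 0 := pow_ne_zero _ ha0
  field_simp

/-- **Prüfer lemma** (over `ℤ`): every element `a` of a valuation subring `A` of a field
algebraic over `ℚ` is a quotient `a = (s a) / s` of algebraic integers with `s` a unit of `A`. -/
theorem po_exists_integral_unit [CharZero L] (A : ValuationSubring L) {a : L} (ha : a ∈ A)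
    (halg : IsAlgebraic ℤ a) :
    ∃ s : L, s ∈ A ∧ s⁻¹ ∈ A ∧ s ≠ 0 ∧ IsIntegral ℤ s ∧ IsIntegral ℤ (s * a) := by
  classical
  obtain ⟨p, hp0, hpa⟩ := halg
  have hq : p.primPart.IsPrimitive := isPrimitive_primPart p
  have hqa : aeval a p.primPart = 0 := aeval_primPart_eq_zero hp0 hpa
  set q := p.primPart with hqdef
  set n := q.natDegree with hn
  let c : ℕ → L := fun i => ((q.coeff i : ℤ) : L)
  have hsum : ∑ i ∈ Finset.range (n + 1), c i * a ^ i = 0 := by
    have := aeval_eq_sum_range (p := q) a
    rw [hqa] at this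
    rw [this]
    apply Finset.sum_congr rfl
    intro i _
    rw [zsmul_eq_mul]
  obtain ⟨i₁, hi₁⟩ := po_exists_coeff_unit A hq
  have hi₁n : i₁ ≤ n := by
    by_contra h
    push Not at h
    apply hi₁
    rw [coeff_eq_zero_of_natDegree_lt h, Int.cast_zero]
    exact po_zero_mem_nonunits A
  set i₀ := Nat.findGreatest (fun i => c i ∉ A.nonunits) n with hi₀
  have hi₀spec : c i₀ ∉ A.nonunits := Nat.findGreatest_spec (P := fun i => c i ∉ A.nonunits) hi₁n hi₁
  have hi₀n : i₀ ≤ n := Nat.findGreatest_le n
  have hgt : ∀ i, i₀ < i → c i ∈ A.nonunits := by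
    intro i hi
    by_cases hin : i ≤ n
    · by_contra h
      exact Nat.findGreatest_is_greatest (P := fun i => c i ∉ A.nonunits) hi hin h
    · push Not at hin
      show ((q.coeff i : ℤ) : L) ∈ A.nonunits
      rw [coeff_eq_zero_of_natDegree_lt hin, Int.cast_zero]
      exact po_zero_mem_nonunits A
  set m := n - i₀ with hm
  have hnm : n + 1 = i₀ + (m + 1) := by omega
  set s : L := ∑ j ∈ Finset.range (m + 1), c (i₀ + j) * a ^ j with hs
  set lo : L := ∑ j ∈ Finset.range i₀, c j * a ^ j with hlo
  have hid : lo + a ^ i₀ * s = 0 := by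
    rw [← hsum, hnm, Finset.sum_range_add, hs, Finset.mul_sum]
    congr 1
    apply Finset.sum_congr rfl
    intro j _
    rw [pow_add]
    ring
  have hcA : ∀ i, c i ∈ A := fun i => po_intCast_mem A _
  -- `s` is a unit of `A`
  have hsA : s ∈ A := by
    rw [hs]
    exact sum_mem fun j _ => A.mul_mem _ _ (hcA _) (pow_mem ha j)
  have hsn : s ∉ A.nonunits := by
    intro hsn
    apply hi₀spec
    have e : s = (∑ j ∈ Finset.range m, c (i₀ + (j + 1)) * a ^ (j + 1)) + c i₀ := by
      rw [hs, Finset.sum_range_succ']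
      simp
    have htail : (∑ j ∈ Finset.range m, c (i₀ + (j + 1)) * a ^ (j + 1)) ∈ A.nonunits := by
      apply po_sum_mem_nonunits
      intro j _
      exact po_nonunits_mul_right (hgt _ (by omega)) (pow_mem ha _)
    have e2 : c i₀ = s - ∑ j ∈ Finset.range m, c (i₀ + (j + 1)) * a ^ (j + 1) := by
      rw [e]; ring
    rw [e2]
    exact po_nonunits_sub hsn htail
  have hs0 : s ≠ 0 := by
    intro h0
    apply hsn
    rw [h0]
    exact po_zero_mem_nonunits A
  have hsform : a ≠ 0 → s = - (lo * (a⁻¹) ^ i₀) := by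
    intro ha0
    have h2 : a ^ i₀ * s = - lo := by
      rw [← add_eq_zero_iff_eq_neg']
      exact hid
    have h3 : a ^ i₀ ≠ 0 := pow_ne_zero _ ha0
    rw [inv_pow]
    field_simp
    rw [mul_comm]
    linear_combination h2
  refine ⟨s, hsA, po_inv_mem_of_not_mem_nonunits hsA hsn, hs0, ?_, ?_⟩
  · apply po_isIntegral_int_of_forall_mem
    intro O
    have hcO : ∀ i, c i ∈ O := fun i => po_intCast_mem O _
    by_cases haO : a ∈ O
    · rw [hs]
      exact sum_mem fun j _ => O.mul_mem _ _ (hcO _) (pow_mem haO j)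
    · have ha0 : a ≠ 0 := fun h => haO (h ▸ O.zero_mem)
      have hb : a⁻¹ ∈ O := (O.mem_or_inv_mem a).resolve_left haO
      have e : s = - ∑ j ∈ Finset.range i₀, c j * (a⁻¹) ^ (i₀ - j) := by
        rw [hsform ha0, hlo, Finset.sum_mul]
        congr 1
        apply Finset.sum_congr rfl
        intro j hj
        rw [mul_assoc, po_pow_mul_inv_pow ha0 (Finset.mem_range.1 hj).le]
      rw [e]
      exact neg_mem (sum_mem fun j _ => O.mul_mem _ _ (hcO _) (pow_mem hb _))
  · apply po_isIntegral_int_of_forall_mem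
    intro O
    have hcO : ∀ i, c i ∈ O := fun i => po_intCast_mem O _
    by_cases haO : a ∈ O
    · rw [hs]
      exact O.mul_mem _ _ (sum_mem fun j _ => O.mul_mem _ _ (hcO _) (pow_mem haO j)) haO
    · have ha0 : a ≠ 0 := fun h => haO (h ▸ O.zero_mem)
      have hb : a⁻¹ ∈ O := (O.mem_or_inv_mem a).resolve_left haO
      have e : s * a = - ∑ j ∈ Finset.range i₀, c j * (a⁻¹) ^ (i₀ - (j + 1)) := by
        rw [hsform ha0, hlo, neg_mul, Finset.sum_mul, Finset.sum_mul]
        congr 1
        apply Finset.sum_congr rfl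
        intro j hj
        have h1 : c j * a ^ j * a⁻¹ ^ i₀ * a = c j * (a ^ (j + 1) * a⁻¹ ^ i₀) := by
          rw [pow_succ]
          ring
        rw [h1, po_pow_mul_inv_pow ha0 (Finset.mem_range.1 hj)]
      rw [e]
      exact neg_mem (sum_mem fun j _ => O.mul_mem _ _ (hcO _) (pow_mem hb _))

end Pruefer


section Transfer

variable {R F : Type} [CommRing R] [Field F] [Algebra R F]

/-- the multiplicative set of denominators: `R`-integral elements which are units of `W` -/
def poDenom (R : Type) {F : Type} [CommRing R] [Field F] [Algebra R F]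
    (W : ValuationSubring F) : Submonoid F where
  carrier := {u | IsIntegral R u ∧ u ∉ W.nonunits}
  mul_mem' := by
    rintro a b ⟨ha, han⟩ ⟨hb, hbn⟩
    refine ⟨ha.mul hb, fun h => ?_⟩
    rw [ValuationSubring.mem_nonunits_iff, map_mul] at h
    rw [ValuationSubring.mem_nonunits_iff, not_lt] at han hbn
    have : (1 : W.ValueGroup) ≤ W.valuation a * W.valuation b := by
      calc (1 : W.ValueGroup) = 1 * 1 := (one_mul 1).symm
        _ ≤ W.valuation a * W.valuation b := mul_le_mul' han hbn
    exact absurd h (not_lt.2 this)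
  one_mem' := ⟨isIntegral_one, po_one_not_mem_nonunits W⟩

theorem po_mem_poDenom {W : ValuationSubring F} {u : F} :
    u ∈ poDenom R W ↔ IsIntegral R u ∧ u ∉ W.nonunits := Iff.rfl

/-- the elements with a denominator form a subring -/
def poDenomSubring (R : Type) {F : Type} [CommRing R] [Field F] [Algebra R F]
    (W : ValuationSubring F) : Subring F where
  carrier := {g | ∃ u ∈ poDenom R W, IsIntegral R (u * g)}
  mul_mem' := by
    rintro a b ⟨u, hu, hua⟩ ⟨v, hv, hvb⟩
    refine ⟨u * v, mul_mem hu hv, ?_⟩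
    have e : u * v * (a * b) = (u * a) * (v * b) := by ring
    rw [e]
    exact hua.mul hvb
  one_mem' := ⟨1, one_mem _, by rw [one_mul]; exact isIntegral_one⟩
  add_mem' := by
    rintro a b ⟨u, hu, hua⟩ ⟨v, hv, hvb⟩
    refine ⟨u * v, mul_mem hu hv, ?_⟩
    have e : u * v * (a + b) = v * (u * a) + u * (v * b) := by ring
    rw [e]
    exact (hv.1.mul hua).add (hu.1.mul hvb)
  zero_mem' := ⟨1, one_mem _, by rw [mul_zero]; exact isIntegral_zero⟩
  neg_mem' := by
    rintro a ⟨u, hu, hua⟩
    refine ⟨u, hu, ?_⟩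
    rw [mul_neg]
    exact hua.neg

theorem po_mem_poDenomSubring {W : ValuationSubring F} {g : F} :
    g ∈ poDenomSubring R W ↔ ∃ u ∈ poDenom R W, IsIntegral R (u * g) := Iff.rfl

/-- **Transfer of centres.**  If `O₂` and `W` have the same centre on the `R`-integral elements,
they have the same centre on every element with a denominator. -/
theorem po_centre_transfer (W O₂ : ValuationSubring F)
    (hW : ∀ s : F, IsIntegral R s → s ∈ W)
    (h : ∀ s : F, IsIntegral R s → s ∈ O₂ ∧ (s ∈ O₂.nonunits ↔ s ∈ W.nonunits))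
    {f : F} (hf : f ∈ poDenomSubring R W) :
    f ∈ O₂ ∧ f ∈ W ∧ (f ∈ O₂.nonunits ↔ f ∈ W.nonunits) := by
  obtain ⟨u, ⟨hu, hun⟩, huf⟩ := hf
  have hu0 : u ≠ 0 := by
    intro h0
    apply hun
    rw [h0]
    exact po_zero_mem_nonunits W
  have huO : u ∈ O₂ := (h u hu).1
  have hunO : u ∉ O₂.nonunits := fun hn => hun ((h u hu).2.1 hn)
  have hiW : u⁻¹ ∈ W := po_inv_mem_of_not_mem_nonunits (hW u hu) hun
  have hiO : u⁻¹ ∈ O₂ := po_inv_mem_of_not_mem_nonunits huO hunO
  have e : f = u⁻¹ * (u * f) := by
    rw [← mul_assoc, inv_mul_cancel₀ hu0, one_mul]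
  refine ⟨?_, ?_, ?_, ?_⟩
  · rw [e]
    exact O₂.mul_mem _ _ hiO (h _ huf).1
  · rw [e]
    exact W.mul_mem _ _ hiW (hW _ huf)
  · intro hfn
    have h1 : u * f ∈ O₂.nonunits := po_nonunits_mul_left huO hfn
    have h2 : u * f ∈ W.nonunits := (h _ huf).2.1 h1
    rw [e]
    exact po_nonunits_mul_left hiW h2
  · intro hfn
    have h1 : u * f ∈ W.nonunits := po_nonunits_mul_left (hW u hu) hfn
    have h2 : u * f ∈ O₂.nonunits := (h _ huf).2.2 h1
    rw [e]
    exact po_nonunits_mul_left hiO h2

end Transfer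

section Composite

variable {L F : Type} [Field L] [Field F] [Algebra L F]

/-- **The composite.**  `O₂ ≤ O` valuation subrings of `F ⊇ L`, `A` a valuation subring of `L`
with `O₂ ∩ L = A`.  If `f` has the value `c ∈ L` at `O` (`f - c ∈ 𝔪_O`), then `f ∈ O₂ ↔ c ∈ A` and
`f ∈ 𝔪_{O₂} ↔ c ∈ 𝔪_A`. -/
theorem po_composite {O₂ O : ValuationSubring F} (hle : O₂ ≤ O) (A : ValuationSubring L)
    (hA : ∀ c : L, algebraMap L F c ∈ O₂ ↔ c ∈ A) {f : F} {c : L}
    (hfc : f - algebraMap L F c ∈ O.nonunits) :
    (f ∈ O₂ ↔ c ∈ A) ∧ (f ∈ O₂.nonunits ↔ c ∈ A.nonunits) := by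
  have hm : f - algebraMap L F c ∈ O₂.nonunits :=
    (ValuationSubring.nonunits_le_nonunits.2 hle) hfc
  have hA' : A = O₂.comap (algebraMap L F) := by
    ext x
    rw [ValuationSubring.mem_comap]
    exact (hA x).symm
  have hAn : ∀ x : L, algebraMap L F x ∈ O₂.nonunits ↔ x ∈ A.nonunits := by
    intro x
    rw [hA', po_mem_nonunits_comap]
  constructor
  · rw [← hA c]
    constructor
    · intro hf
      have e : algebraMap L F c = f - (f - algebraMap L F c) := by ring
      rw [e]
      exact sub_mem hf (po_nonunits_mem hm)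
    · intro hc
      have e : f = algebraMap L F c + (f - algebraMap L F c) := by ring
      rw [e]
      exact O₂.add_mem _ _ hc (po_nonunits_mem hm)
  · rw [← hAn c]
    constructor
    · intro hf
      have e : algebraMap L F c = f - (f - algebraMap L F c) := by ring
      rw [e]
      exact po_nonunits_sub hf hm
    · intro hc
      have e : f = algebraMap L F c + (f - algebraMap L F c) := by ring
      rw [e]
      exact po_nonunits_add hc hm

end Composite

end Fermat.Agent.H91.ORD

end
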