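/-
P-ORD, block B1, row 1155 [HART], horizontal step (helper91): **PLACE-OVER for `nmG`**.

`P` a place of `F = FLb N`, `K₁ → ℚ̄` a number field, `A₀ = A ∩ K₁`, `R = B(y₁)` the chart over
`A₀` (`bc y₁ = nmY A P`), `𝔪` the centre of `P` on `R` (a maximal ideal), `P' ≤ 𝔪` a prime of `R`
such that `V = R_{P'}` is a place of `E = ModelField K₁ N`.  Then there is a place `P''` of `F`
over `V` with the SAME `ℚ̄`-centre as `P` : `nmCentre A P'' = nmCentre A P`.

Inputs: `po_exists_pair` (going down + Chevalley), the Prüfer lemma, and two statements proved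
elsewhere: `PoDenominatorsStatement` (PO-A) and `PoPlaceOfValStatement` (PO-D).
-/
import Fermat.Agent.H91.ORD.PlaceOverB
import Fermat.Agent.H84.ORD.NodalSpecA
import Fermat.Agent.H66.ORD.DescDict
import Fermat.Agent.H73.KLPlaceDesc
import Fermat.Agent.H70.SS.RatPlaceModular

set_option autoImplicit false
set_option linter.unusedSectionVars false
set_option linter.unusedVariables false
set_option linter.style.haveILetI false

noncomputable section

open AlgebraicCurve ModularCurve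

namespace Fermat.Agent.H91.ORD

open Fermat.Agent.H72.FF Fermat.Agent.H18.ORD Fermat.Agent.H84.ORD Fermat.Agent.H93.KL
open Fermat.Agent.H22.KL

/-- **PO-A** (denominators): the localisation of the integral closure of `R` in `F` at a
multiplicative set `U` of `R`-integral elements is integrally closed in `F`. -/
def PoDenominatorsStatement : Prop :=
  ∀ (R F : Type) [CommRing R] [Field F] [Algebra R F] (U : Submonoid F),
    (∀ u ∈ U, IsIntegral R u) →
    ∀ (B₀ : Subring F), (∀ g ∈ B₀, ∃ u ∈ U, IsIntegral R (u * g)) →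
    ∀ f : F, B₀.subtype.IsIntegralElem f → ∃ u ∈ U, IsIntegral R (u * f)

/-- **PO-D** : a valuation subring of `F_{ℚ̄}` restricting to a place of `F_{K₁}` is a place. -/
def PoPlaceOfValStatement : Prop :=
  ∀ (F₀ : IntermediateField ℚ (LaurentSeries ℚ))
    (K₁ : Type) [Field K₁] [Algebra ℚ K₁] (ι : K₁ →+* QBar)
    (P₁ : Place K₁ ↥(laurentBaseChange K₁ F₀))
    (O : ValuationSubring ↥(laurentBaseChange QBar F₀)),
    (∀ x : ↥(laurentBaseChange K₁ F₀), klBc ι F₀ x ∈ O ↔ x ∈ P₁.toValuationSubring) →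
    ∃ P : Place QBar ↥(laurentBaseChange QBar F₀), P.toValuationSubring = O ∧
      ∀ f : ↥(laurentBaseChange K₁ F₀), P.ord (klBc ι F₀ f) = P₁.ord f

section Basic

variable {N : ℕ} [NeZero N] (A : ValuationSubring Qb)

theorem nm_deg_one (P : Place Qb (FLb N)) : P.deg = 1 :=
  Fermat.Agent.H70.SS.ss_deg_eq_one_bar N P

/-- the chart coordinate of `P` has a value in `A` at `P` -/
theorem nmY_mem_nmComp (P : Place Qb (FLb N)) : nmY A P ∈ nmComp A P (nm_deg_one P) := by
  classical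
  by_cases h : nmJ N ∈ nmInt A P
  · rw [nmY, if_pos h]
    exact h
  · rw [nmY, if_neg h]
    exact ((nmComp A P (nm_deg_one P)).mem_or_inv_mem (nmJ N)).resolve_left h

/-- the chart is contained in every valuation subring containing `A` and the coordinate -/
theorem nmChart_le_of (y : FLb N) (O : ValuationSubring (FLb N))
    (hA : ∀ c ∈ A, algebraMap Qb (FLb N) c ∈ O) (hy : y ∈ O) :
    ∀ f ∈ nmChart N A y, f ∈ O := by
  intro f hf
  rw [mem_nmChart_iff] at hf
  have hle : nmPoly N A y ≤ O.toSubring := by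
    rw [nmPoly, Subring.closure_le]
    rintro x (⟨c, hc, rfl⟩ | hx)
    · exact hA c hc
    · rw [Set.mem_singleton_iff] at hx
      rw [hx]
      exact hy
  obtain ⟨p, hp, hpf⟩ := hf
  let φ : ↥(nmPoly N A y) →+* O := Subring.inclusion hle
  have h1 : IsIntegral O f := by
    refine ⟨p.map φ, hp.map φ, ?_⟩
    rw [Polynomial.eval₂_map]
    exact hpf
  obtain ⟨z, hz⟩ := (IsIntegrallyClosed.isIntegral_iff (R := O) (K := FLb N)).1 h1
  rw [← hz]
  exact z.2

theorem nmChart_le_nmComp (P : Place Qb (FLb N)) :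
    ∀ f ∈ nmChart N A (nmY A P), f ∈ nmComp A P (nm_deg_one P) :=
  nmChart_le_of A _ _ (fun c hc => algebraMap_mem_nmComp A P _ hc) (nmY_mem_nmComp A P)

end Basic


section Main

variable {N : ℕ} [NeZero N] (A : ValuationSubring Qb)

/-- integers of `ℚ̄` are integral over any ring -/
theorem nm_isIntegral_const {R : Type} [CommRing R] [Algebra R (FLb N)] {s : Qb}
    (hs : IsIntegral ℤ s) : IsIntegral R (algebraMap Qb (FLb N) s) := by
  have h1 : IsIntegral ℤ (algebraMap Qb (FLb N) s) := hs.map (Algebra.ofId Qb (FLb N)).toIntAlgHom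
  exact h1.tower_top

/-- constants of `A` have denominators -/
theorem nm_const_mem_denom {R : Type} [CommRing R] [Algebra R (FLb N)]
    (W : ValuationSubring (FLb N)) (hAW : ∀ c ∈ A, algebraMap Qb (FLb N) c ∈ W)
    {c : Qb} (hc : c ∈ A) : algebraMap Qb (FLb N) c ∈ poDenomSubring R W := by
  have halg : IsAlgebraic ℤ c :=
    (IsFractionRing.isAlgebraic_iff ℤ ℚ Qb).2 ((AlgebraicClosure.isAlgebraic ℚ).isAlgebraic c)
  obtain ⟨s, hsA, hsi, hs0, hsint, hscint⟩ := po_exists_integral_unit A hc halg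
  refine ⟨algebraMap Qb (FLb N) s, ⟨nm_isIntegral_const hsint, ?_⟩, ?_⟩
  · apply po_not_mem_nonunits_of_inv ((map_ne_zero _).2 hs0)
    rw [← map_inv₀]
    exact hAW _ hsi
  · rw [← map_mul]
    exact nm_isIntegral_const hscint

variable {K₁ : Type} [Field K₁] [Algebra ℚ K₁] (ι : K₁ →+* QBar)
  [Algebra ↥(A.comap ι) (ModelField K₁ N)]
  [IsScalarTower ↥(A.comap ι) K₁ (ModelField K₁ N)]

/-- **PLACE-OVER for `nmG`.** -/
theorem nmPlaceOver (hA : PoDenominatorsStatement) (hD : PoPlaceOfValStatement)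
    (P : Place Qb (FLb N)) (y₁ : ModelField K₁ N)
    (hy : klBc ι (modularFunctionFieldFull N) y₁ = nmY A P)
    [IsDomain ↥(chartClosure ↥(A.comap ι) (ModelField K₁ N) y₁)]
    [IsIntegrallyClosed ↥(chartClosure ↥(A.comap ι) (ModelField K₁ N) y₁)]
    (𝔪 : Ideal ↥(chartClosure ↥(A.comap ι) (ModelField K₁ N) y₁)) (h𝔪 : 𝔪.IsMaximal)
    (h𝔪P : ∀ r : ↥(chartClosure ↥(A.comap ι) (ModelField K₁ N) y₁),
      klBc ι (modularFunctionFieldFull N) (r : ModelField K₁ N) ∈ nmMax A P ↔ r ∈ 𝔪)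
    (P' : Ideal ↥(chartClosure ↥(A.comap ι) (ModelField K₁ N) y₁)) [hP' : P'.IsPrime]
    (hP'𝔪 : P' ≤ 𝔪)
    (P₁ : Place K₁ (ModelField K₁ N))
    (hV : ∀ x : ModelField K₁ N, x ∈ P₁.toValuationSubring ↔
      ∃ s : ↥(chartClosure ↥(A.comap ι) (ModelField K₁ N) y₁), s ∉ P' ∧
        algebraMap ↥(chartClosure ↥(A.comap ι) (ModelField K₁ N) y₁) (ModelField K₁ N) s * x ∈
          (algebraMap ↥(chartClosure ↥(A.comap ι) (ModelField K₁ N) y₁)
            (ModelField K₁ N)).range) :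
    ∃ P'' : Place Qb (FLb N), nmCentre A P'' = nmCentre A P ∧
      ∀ x : ModelField K₁ N,
        klBc ι (modularFunctionFieldFull N) x ∈ P''.toValuationSubring ↔
          x ∈ P₁.toValuationSubring := by
  classical
  set bc := klBc ι (modularFunctionFieldFull N) with hbc
  letI algEF : Algebra (ModelField K₁ N) (FLb N) := bc.toAlgebra
  letI algRF : Algebra ↥(chartClosure ↥(A.comap ι) (ModelField K₁ N) y₁) (FLb N) :=
    (bc.comp (algebraMap ↥(chartClosure ↥(A.comap ι) (ModelField K₁ N) y₁)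
      (ModelField K₁ N))).toAlgebra
  haveI tower : IsScalarTower ↥(chartClosure ↥(A.comap ι) (ModelField K₁ N) y₁)
      (ModelField K₁ N) (FLb N) := IsScalarTower.of_algebraMap_eq (fun r => rfl)
  have halgRF : ∀ r : ↥(chartClosure ↥(A.comap ι) (ModelField K₁ N) y₁),
      algebraMap ↥(chartClosure ↥(A.comap ι) (ModelField K₁ N) y₁) (FLb N) r
        = bc (r : ModelField K₁ N) := fun r => rfl
  have hinj : Function.Injective
      (algebraMap ↥(chartClosure ↥(A.comap ι) (ModelField K₁ N) y₁) (FLb N)) := by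
    intro a b hab
    rw [halgRF, halgRF] at hab
    exact Subtype.ext (bc.injective hab)
  set W := nmComp A P (nm_deg_one P) with hW
  have hAW : ∀ c ∈ A, algebraMap Qb (FLb N) c ∈ W := fun c hc => algebraMap_mem_nmComp A P _ hc
  have hRchart : ∀ r : ↥(chartClosure ↥(A.comap ι) (ModelField K₁ N) y₁),
      bc (r : ModelField K₁ N) ∈ nmChart N A (nmY A P) := by
    intro r
    rw [← hy]
    exact Fermat.Agent.H66.ORD.bc_mem_nmChart N A ι y₁ _ r.2
  have hRW : ∀ r : ↥(chartClosure ↥(A.comap ι) (ModelField K₁ N) y₁),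
      algebraMap ↥(chartClosure ↥(A.comap ι) (ModelField K₁ N) y₁) (FLb N) r ∈ W :=
    fun r => nmChart_le_nmComp A P _ (hRchart r)
  have hW𝔪 : ∀ r : ↥(chartClosure ↥(A.comap ι) (ModelField K₁ N) y₁),
      algebraMap ↥(chartClosure ↥(A.comap ι) (ModelField K₁ N) y₁) (FLb N) r ∈ W.nonunits
        ↔ r ∈ 𝔪 := by
    intro r
    rw [halgRF, hW, mem_nonunits_nmComp_iff]
    exact h𝔪P r
  obtain ⟨O, O₂, hle, hOV, hcen⟩ :=
    @po_exists_pair ↥(chartClosure ↥(A.comap ι) (ModelField K₁ N) y₁) (ModelField K₁ N) (FLb N)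
      _ _ _ _ algEF algRF tower _ _ hinj W hRW 𝔪 h𝔪 hW𝔪 P' hP' hP'𝔪
      P₁.toValuationSubring hV
  obtain ⟨P'', hP''O, -⟩ := hD (modularFunctionFieldFull N) K₁ ι P₁ O hOV
  have hWint : ∀ s : FLb N,
      IsIntegral ↥(chartClosure ↥(A.comap ι) (ModelField K₁ N) y₁) s → s ∈ W :=
    fun s hs => po_integral_mem W hRW hs
  -- transfer on the chart
  have hyint : IsIntegral ↥(chartClosure ↥(A.comap ι) (ModelField K₁ N) y₁) (nmY A P) := by
    have hy₁ : y₁ ∈ chartClosure ↥(A.comap ι) (ModelField K₁ N) y₁ := by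
      show IsIntegral ↥(chartRing ↥(A.comap ι) (ModelField K₁ N) y₁) y₁
      exact isIntegral_algebraMap
        (x := (⟨y₁, Algebra.subset_adjoin (Set.mem_singleton y₁)⟩ :
          ↥(chartRing ↥(A.comap ι) (ModelField K₁ N) y₁)))
    rw [← hy]
    exact isIntegral_algebraMap (R := ↥(chartClosure ↥(A.comap ι) (ModelField K₁ N) y₁))
      (x := ⟨y₁, hy₁⟩)
  have hpoly : nmPoly N A (nmY A P)
      ≤ poDenomSubring ↥(chartClosure ↥(A.comap ι) (ModelField K₁ N) y₁) W := by
    rw [nmPoly, Subring.closure_le]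
    rintro x (⟨c, hc, rfl⟩ | hx)
    · exact nm_const_mem_denom A W hAW hc
    · rw [Set.mem_singleton_iff] at hx
      rw [hx]
      exact ⟨1, one_mem _, by rw [one_mul]; exact hyint⟩
  have hchart : ∀ f ∈ nmChart N A (nmY A P),
      f ∈ poDenomSubring ↥(chartClosure ↥(A.comap ι) (ModelField K₁ N) y₁) W := by
    intro f hf
    rw [mem_nmChart_iff] at hf
    exact hA _ _ (poDenom ↥(chartClosure ↥(A.comap ι) (ModelField K₁ N) y₁) W)
      (fun u hu => hu.1) (nmPoly N A (nmY A P)) (fun g hg => hpoly hg) f hf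
  have htr : ∀ f ∈ poDenomSubring ↥(chartClosure ↥(A.comap ι) (ModelField K₁ N) y₁) W,
      f ∈ O₂ ∧ f ∈ W ∧ (f ∈ O₂.nonunits ↔ f ∈ W.nonunits) :=
    fun f hf => po_centre_transfer W O₂ hWint hcen hf
  -- `O₂ ∩ ℚ̄ = A`
  have hO₂A : ∀ c : Qb, algebraMap Qb (FLb N) c ∈ O₂ ↔ c ∈ A := by
    intro c
    constructor
    · intro hcO
      by_contra hcA
      have hc0 : c ≠ 0 := fun h0 => hcA (h0 ▸ A.zero_mem)
      have hci : c⁻¹ ∈ A.nonunits := (ValuationSubring.inv_mem_nonunits_iff A).2 (Or.inr hcA)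
      have h1 : algebraMap Qb (FLb N) c⁻¹ ∈ W.nonunits := by
        rw [hW, mem_nonunits_nmComp_iff]
        exact ⟨c⁻¹, hci, nm_hasValue_const P _⟩
      have h2 : algebraMap Qb (FLb N) c⁻¹ ∈ O₂.nonunits :=
        (htr _ (nm_const_mem_denom A W hAW (po_nonunits_mem hci))).2.2.2 h1
      have h3 := po_nonunits_mul_left hcO h2
      rw [← map_mul, mul_inv_cancel₀ hc0, map_one] at h3
      exact po_one_not_mem_nonunits O₂ h3
    · intro hcA
      exact (htr _ (nm_const_mem_denom A W hAW hcA)).1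
  -- `O₂` is the composite of `P''` and `A`
  have hdeg'' := nm_deg_one P''
  have hval : ∀ f : FLb N, ∀ c : Qb, HasValue P'' f c →
      (f ∈ O₂ ↔ c ∈ A) ∧ (f ∈ O₂.nonunits ↔ c ∈ A.nonunits) := by
    intro f c hfc
    apply po_composite hle A hO₂A
    rw [← hP''O]
    exact (nm_hasValue_iff P'').1 hfc
  have hO₂int : ∀ f : FLb N, f ∈ O₂ ↔ f ∈ nmInt A P'' := by
    intro f
    constructor
    · intro hf
      have hfO : f ∈ P''.toValuationSubring := by rw [hP''O]; exact hle hf
      obtain ⟨c, hc⟩ := nm_exists_hasValue P'' hdeg''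
        ((ValuationSubring.valuation_le_one_iff _ _).2 hfO)
      exact ⟨c, ((hval f c hc).1).1 hf, hc⟩
    · rintro ⟨c, hcA, hc⟩
      exact ((hval f c hc).1).2 hcA
  have hO₂max : ∀ f : FLb N, f ∈ O₂.nonunits ↔ f ∈ nmMax A P'' := by
    intro f
    constructor
    · intro hf
      have hfO : f ∈ P''.toValuationSubring := by rw [hP''O]; exact hle (po_nonunits_mem hf)
      obtain ⟨c, hc⟩ := nm_exists_hasValue P'' hdeg''
        ((ValuationSubring.valuation_le_one_iff _ _).2 hfO)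
      exact ⟨c, ((hval f c hc).2).1 hf, hc⟩
    · rintro ⟨c, hcA, hc⟩
      exact ((hval f c hc).2).2 hcA
  -- the charts agree
  have hyO₂ : nmY A P ∈ O₂ := (hcen _ hyint).1
  have hYeq : nmY A P'' = nmY A P := by
    by_cases hj : nmJ N ∈ nmInt A P
    · have e : nmY A P = nmJ N := by rw [nmY, if_pos hj]
      have hj'' : nmJ N ∈ nmInt A P'' := by
        rw [← hO₂int, ← e]
        exact hyO₂
      rw [e, nmY, if_pos hj'']
    · have e : nmY A P = (nmJ N)⁻¹ := by rw [nmY, if_neg hj]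
      have hjW : nmJ N ∉ W := hj
      have h1 : (nmJ N)⁻¹ ∈ W.nonunits := (ValuationSubring.inv_mem_nonunits_iff W).2 (Or.inr hjW)
      have h2 : (nmJ N)⁻¹ ∈ O₂.nonunits := by
        have := (hcen _ hyint).2
        rw [e] at this
        exact this.2 h1
      have hj0 : nmJ N ≠ 0 := fun h0 => hjW (h0 ▸ W.zero_mem)
      have hj'' : nmJ N ∉ nmInt A P'' := by
        rw [← hO₂int]
        rcases (ValuationSubring.inv_mem_nonunits_iff O₂).1 h2 with h3 | h3
        · exact absurd h3 hj0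
        · exact h3
      rw [e, nmY, if_neg hj'']
  refine ⟨P'', ?_, fun x => ?_⟩
  · ext f
    rw [mem_nmCentre_iff, mem_nmCentre_iff, hYeq]
    constructor
    · rintro ⟨hf, hfm⟩
      refine ⟨hf, ?_⟩
      have h1 : f ∈ O₂.nonunits := (hO₂max f).2 hfm
      have h2 : f ∈ W.nonunits := (htr f (hchart f hf)).2.2.1 h1
      rw [hW, mem_nonunits_nmComp_iff] at h2
      exact h2
    · rintro ⟨hf, hfm⟩
      refine ⟨hf, ?_⟩
      have h1 : f ∈ W.nonunits := by
        rw [hW, mem_nonunits_nmComp_iff]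
        exact hfm
      exact (hO₂max f).1 ((htr f (hchart f hf)).2.2.2 h1)
  · rw [hP''O]
    exact hOV x

end Main

end Fermat.Agent.H91.ORD

end
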