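/-
P-ORD, block B1, row 1155 [HART], horizontal step, FINAL (helper91): **PLACE-OVER for `nmG`,
unconditional.**

* `po_denominators` : PO-A (the localisation of an integral closure is integrally closed);
* `nmPlaceOverFinal` : `Fermat.Agent.H91.ORD.nmPlaceOver` with PO-A (here) and PO-D
  (`Fermat.Agent.H57.ORD.po_place_of_val`, helper57) plugged in.
-/
import Fermat.Agent.H91.ORD.NmPlaceOver
import Fermat.Agent.H57.ORD.PoPlaceOfVal

set_option autoImplicit false
set_option linter.unusedSectionVars false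
set_option linter.unusedVariables false
set_option linter.style.haveILetI false

noncomputable section

open AlgebraicCurve ModularCurve Polynomial

namespace Fermat.Agent.H91.ORD

open Fermat.Agent.H72.FF Fermat.Agent.H18.ORD Fermat.Agent.H84.ORD Fermat.Agent.H93.KL
open Fermat.Agent.H22.KL

/-- common denominator for finitely many elements -/
theorem po_common_denom {R F : Type} [CommRing R] [Field F] [Algebra R F] (U : Submonoid F)
    (hU : ∀ u ∈ U, IsIntegral R u) (c : ℕ → F) (n : ℕ)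
    (h : ∀ i < n, ∃ u ∈ U, IsIntegral R (u * c i)) :
    ∃ u ∈ U, ∀ i < n, IsIntegral R (u * c i) := by
  induction n with
  | zero => exact ⟨1, one_mem _, fun i hi => absurd hi (Nat.not_lt_zero i)⟩
  | succ k ih =>
    obtain ⟨u, hu, hui⟩ := ih (fun i hi => h i (Nat.lt_succ_of_lt hi))
    obtain ⟨v, hv, hvk⟩ := h k (Nat.lt_succ_self k)
    refine ⟨u * v, mul_mem hu hv, fun i hi => ?_⟩
    rcases Nat.lt_succ_iff_lt_or_eq.1 hi with h1 | h1
    · have e : u * v * c i = v * (u * c i) := by ring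
      rw [e]
      exact (hU v hv).mul (hui i h1)
    · subst h1
      have e : u * v * c i = u * (v * c i) := by ring
      rw [e]
      exact (hU u hu).mul hvk

/-- **PO-A** -/
theorem po_denominators (R F : Type) [CommRing R] [Field F] [Algebra R F] (U : Submonoid F)
    (hU : ∀ u ∈ U, IsIntegral R u) (B₀ : Subring F)
    (hB₀ : ∀ g ∈ B₀, ∃ u ∈ U, IsIntegral R (u * g)) (f : F)
    (hf : B₀.subtype.IsIntegralElem f) : ∃ u ∈ U, IsIntegral R (u * f) := by
  obtain ⟨p, hp, hpf⟩ := hf
  set P : F[X] := p.map B₀.subtype with hP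
  have hPm : P.Monic := hp.map _
  have hPf : P.eval f = 0 := by
    rw [hP, eval_map]
    exact hpf
  set n := P.natDegree with hn
  obtain ⟨u, hu, hui⟩ := po_common_denom U hU (fun i => P.coeff i) n (fun i _ => by
    have : P.coeff i ∈ B₀ := by
      rw [hP, coeff_map]
      exact (p.coeff i).2
    exact hB₀ _ this)
  refine ⟨u, hu, ?_⟩
  -- the scaled polynomial
  set Q : F[X] := scaleRoots P u with hQ
  have hQm : Q.Monic := (monic_scaleRoots_iff u).2 hPm
  have hQf : Q.eval (u * f) = 0 := by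
    rw [hQ, scaleRoots_eval_mul, hPf, mul_zero]
  let S : Subalgebra R F := integralClosure R F
  have hcoef : ∀ i, Q.coeff i ∈ S := by
    intro i
    rw [hQ, coeff_scaleRoots]
    rcases lt_trichotomy i n with hi | hi | hi
    · have hk : P.natDegree - i = (P.natDegree - i - 1) + 1 := by omega
      rw [hk, pow_succ]
      have e : P.coeff i * (u ^ (P.natDegree - i - 1) * u)
          = u ^ (P.natDegree - i - 1) * (u * P.coeff i) := by ring
      rw [e]
      exact S.mul_mem (S.pow_mem (hU u hu) _) (hui i hi)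
    · rw [hi, hn, tsub_self, pow_zero, mul_one, coeff_natDegree, hPm.leadingCoeff]
      exact S.one_mem
    · rw [coeff_eq_zero_of_natDegree_lt hi, zero_mul]
      exact S.zero_mem
  have hlift : Q ∈ lifts (algebraMap S F) := by
    rw [lifts_iff_coeff_lifts]
    intro i
    exact ⟨⟨Q.coeff i, hcoef i⟩, rfl⟩
  obtain ⟨q, hq, -, hqm⟩ := lifts_and_natDegree_eq_and_monic hlift hQm
  have hint : IsIntegral S (u * f) := by
    refine ⟨q, hqm, ?_⟩
    rw [← eval_map, hq]
    exact hQf
  exact isIntegral_trans _ hint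


theorem poDenominatorsStatement : PoDenominatorsStatement :=
  fun R F _ _ _ U hU B₀ hB₀ f hf => po_denominators R F U hU B₀ hB₀ f hf

theorem poPlaceOfValStatement : PoPlaceOfValStatement :=
  fun F₀ K₁ _ _ ι P₁ O hO => Fermat.Agent.H57.ORD.po_place_of_val F₀ K₁ ι P₁ O hO

section Final

variable {N : ℕ} [NeZero N] (A : ValuationSubring Qb)
variable {K₁ : Type} [Field K₁] [Algebra ℚ K₁] (ι : K₁ →+* QBar)
  [Algebra ↥(A.comap ι) (ModelField K₁ N)]
  [IsScalarTower ↥(A.comap ι) K₁ (ModelField K₁ N)]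

/-- **PLACE-OVER for `nmG`, unconditional.**  `R = B(y₁)` the chart over `A₀ = A ∩ K₁`
(integrally closed), `bc y₁ = nmY A P`, `𝔪` the centre of `P` on `R` (maximal), `P' ≤ 𝔪` a prime,
`P₁` a place of `ModelField K₁ N` whose valuation ring is `R_{P'}`.  Then there is a place `P''`
of `FLb N` over `P₁` with `nmCentre A P'' = nmCentre A P`. -/
theorem nmPlaceOverFinal (P : Place Qb (FLb N)) (y₁ : ModelField K₁ N)
    (hy : klBc ι (modularFunctionFieldFull N) y₁ = nmY A P)
    [IsDomain ↥(chartClosure ↥(A.comap ι) (ModelField K₁ N) y₁)]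
    [IsIntegrallyClosed ↥(chartClosure ↥(A.comap ι) (ModelField K₁ N) y₁)]
    (𝔪 : Ideal ↥(chartClosure ↥(A.comap ι) (ModelField K₁ N) y₁)) (h𝔪 : 𝔪.IsMaximal)
    (h𝔪P : ∀ r : ↥(chartClosure ↥(A.comap ι) (ModelField K₁ N) y₁),
      klBc ι (modularFunctionFieldFull N) (r : ModelField K₁ N) ∈ nmMax A P ↔ r ∈ 𝔪)
    (P' : Ideal ↥(chartClosure ↥(A.comap ι) (ModelField K₁ N) y₁)) [hP' : P'.IsPrime]
    (hP'𝔪 : P' ≤ 𝔪)
    (P₁ : Place K₁ (ModelField K₁ N))
    (hV : ∀ x : ModelField K₁ N, x ∈ P₁.toValuationSubring ↔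
      ∃ s : ↥(chartClosure ↥(A.comap ι) (ModelField K₁ N) y₁), s ∉ P' ∧
        algebraMap ↥(chartClosure ↥(A.comap ι) (ModelField K₁ N) y₁) (ModelField K₁ N) s * x ∈
          (algebraMap ↥(chartClosure ↥(A.comap ι) (ModelField K₁ N) y₁)
            (ModelField K₁ N)).range) :
    ∃ P'' : Place Qb (FLb N), nmCentre A P'' = nmCentre A P ∧
      ∀ x : ModelField K₁ N,
        klBc ι (modularFunctionFieldFull N) x ∈ P''.toValuationSubring ↔
          x ∈ P₁.toValuationSubring :=
  nmPlaceOver A ι poDenominatorsStatement poPlaceOfValStatement P y₁ hy 𝔪 h𝔪 h𝔪P P' hP'𝔪 P₁ hV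

end Final

end Fermat.Agent.H91.ORD

end
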