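/-
P-ORD, block B1, row 1155 [HART] (helper91): **MODEL-LEVEL LOCAL HARTOGS WITH THE HORIZONTAL
HYPOTHESIS AT THE `ℚ̄`-LEVEL.**

helper31's `hp_localHartogs_prime` only applies its horizontal hypothesis to the places
`V = B_P` (`P ≤ 𝔪` a prime, `ϖ ∉ P`), and helper4's `modelHartogsComp_of` only passes it through.
So both hold with the hypothesis restricted to the LOCALISATION-SHAPED places (`CentredLoc`), and
for those `Fermat.Agent.H91.ORD.nmPlaceOverFinal` produces a place of `FLb N` above with the same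
`ℚ̄`-centre as `P`.

* `CentredLoc` : a place centred at `𝔪` which is the localisation of `B(y)` at a prime `P ≤ 𝔪`;
* `hb_localHartogs_loc` : local Hartogs at a prime ideal, horizontal hypothesis on `CentredLoc`;
* `hb_modelHartogsLoc_of` : helper4's `modelHartogsComp_of` for `CentredLoc`;
* `hb_placeOfIsPlace` : the `Place` of a valuation subring satisfying `IsPlace`;
* `nmHartModelBar` : the model-level local Hartogs theorem at the centre of a place `P` of
  `FLb (M p)`, with horizontal hypothesis `klBc g₁ ∈ P'` for all places `P'` of `FLb (M p)` with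
  `nmCentre A P' = nmCentre A P`.
-/
import Fermat.Agent.H91.ORD.NmPlaceOverFinal
import Fermat.Agent.H4.ORD.ModelHartogs

set_option autoImplicit false
set_option synthInstance.maxHeartbeats 400000
set_option maxHeartbeats 1000000
set_option linter.unusedSectionVars false
set_option linter.unusedVariables false
set_option linter.style.haveILetI false

noncomputable section

open AlgebraicCurve ModularCurve Polynomial

namespace Fermat.Agent.H91.ORD

open Fermat.Agent.H22.KL Fermat.Agent.H45 Fermat.Agent.H4.SS Fermat.Agent.H82.SS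
open Fermat.Agent.H7.SS2 Fermat.Agent.H11.SS2
open Fermat.Agent.H67.KLConn (PiDvd)
open Fermat.Agent.H87.KL (evX IntX GC)

/-- A place centred at `𝔪` which is the localisation of `B(y)` at a prime `P ≤ 𝔪`. -/
def CentredLoc (A : Type) [CommRing A] (E : Type) [Field E] [Algebra A E] (y : E)
    (𝔪 : Ideal (chartClosure A E y)) (V : ValuationSubring E) : Prop :=
  CentredAt A E y 𝔪 V ∧ ∃ P : Ideal (chartClosure A E y), P.IsPrime ∧ P ≤ 𝔪 ∧
    ∀ x : E, x ∈ V ↔ ∃ s : chartClosure A E y, s ∉ P ∧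
      algebraMap ↥(chartClosure A E y) E s * x ∈ (algebraMap ↥(chartClosure A E y) E).range

/-- **LOCAL HARTOGS at a prime ideal, horizontal hypothesis on the localisation-shaped places
only** (helper4's / helper31's proof; only the last line differs). -/
theorem hb_localHartogs_loc
    (A : Type) [CommRing A] [IsDomain A] [IsDiscreteValuationRing A]
    (E : Type) [Field E] [Algebra A E] [CharZero E]
    (hinj : Function.Injective (algebraMap A E))
    (ϖ : A) (hϖ : Irreducible ϖ) (y : E) (hy : Transcendental A y)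
    (hfd : ∃ n : ℕ, Nonempty (Module.Basis (Fin n) (chartField A E y) E))
    (𝔪 : Ideal (chartClosure A E y)) (h𝔪 : 𝔪.IsPrime)
    (z : E) (hzC : z ∈ gaussClosure A E ϖ y)
    (hzV : ∀ V : ValuationSubring E, CentredLoc A E y 𝔪 V → z ∈ V) :
    ∃ b : chartClosure A E y, b ∉ 𝔪 ∧ (b : E) * z ∈ chartClosure A E y := by
  classical
  haveI hnoe := Fermat.Agent.H41.SS.chartClosure_isNoetherianRing A E hinj ϖ hϖ y hy hfd
  haveI hfr := Fermat.Agent.H41.SS.chartClosure_isFractionRing A E y hy hfd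
  haveI hic := chartClosure_isIntegrallyClosed A E y hy hfd
  haveI h𝔪p : 𝔪.IsPrime := h𝔪
  have hinjB : Function.Injective (algebraMap ↥(chartClosure A E y) E) :=
    IsFractionRing.injective _ E
  suffices hcore : ∃ b : ↥(chartClosure A E y), b ∉ 𝔪 ∧
      algebraMap ↥(chartClosure A E y) E b * z ∈ (algebraMap ↥(chartClosure A E y) E).range by
    obtain ⟨b, hb, c, hc⟩ := hcore
    refine ⟨b, hb, ?_⟩
    have : (b : E) * z = (c : E) := hc.symm
    rw [this]
    exact c.2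
  apply hartogs_core 𝔪 z
  intro P V hP hP𝔪 hP0 hV hpid hht
  have hone : (1 : ↥(chartClosure A E y)) ∉ P := (Ideal.ne_top_iff_one P).1 hP.ne_top
  by_cases hϖP : algebraMap A ↥(chartClosure A E y) ϖ ∈ P
  · -- the vertical case: going down
    letI : Algebra A[X] ↥(chartClosure A E y) := (hartogsPolyHom A E y).toRingHom.toAlgebra
    haveI : FaithfulSMul A[X] ↥(chartClosure A E y) :=
      (faithfulSMul_iff_algebraMap_injective A[X] ↥(chartClosure A E y)).mpr
        (hartogsPolyHom_injective A E hy)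
    haveI : Algebra.IsIntegral A[X] ↥(chartClosure A E y) :=
      ⟨fun b => hartogs_isIntegralElem A E y b⟩
    haveI : IsIntegrallyClosed A[X] := inferInstance
    haveI : Algebra.HasGoingDown A[X] ↥(chartClosure A E y) := inferInstance
    have hCϖ : algebraMap A[X] ↥(chartClosure A E y) (C ϖ) =
        algebraMap A ↥(chartClosure A E y) ϖ := (hartogsPolyHom A E y).commutes ϖ
    have hprimeC : Prime (C ϖ : A[X]) := Polynomial.prime_C_iff.mpr hϖ.prime
    haveI hp₀ : (Ideal.span {(C ϖ : A[X])}).IsPrime :=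
      (Ideal.span_singleton_prime hprimeC.ne_zero).2 hprimeC
    haveI hPi : P.IsPrime := hP
    haveI hlo : P.LiesOver (P.under A[X]) := ⟨rfl⟩
    have hle : Ideal.span {(C ϖ : A[X])} ≤ P.under A[X] := by
      rw [Ideal.span_singleton_le_iff_mem, Ideal.mem_comap, hCϖ]
      exact hϖP
    have hnlt : ¬ Ideal.span {(C ϖ : A[X])} < P.under A[X] := by
      intro hlt
      obtain ⟨Q, hQlt, hQp, hQlo⟩ := Ideal.exists_ideal_lt_liesOver_of_lt P hlt
      rcases hht Q hQp hQlt.le with h0 | h1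
      · have h2 : (C ϖ : A[X]) ∈ Q.under A[X] := by
          rw [← hQlo.over]
          exact Ideal.mem_span_singleton_self _
        rw [Ideal.mem_comap, hCϖ, h0, Ideal.mem_bot] at h2
        have h3 : algebraMap A E ϖ = 0 := congrArg Subtype.val h2
        exact hϖ.ne_zero (hinj (by rw [h3, map_zero]))
      · exact hQlt.ne h1
    have heq : P.under A[X] = Ideal.span {(C ϖ : A[X])} :=
      (eq_of_le_of_not_lt hle hnlt).symm
    obtain ⟨h, hh, hnd, hhz⟩ := hzC
    obtain ⟨H, rfl⟩ := (Fermat.Agent.H87.KL.mem_chartRing_iff y h).1 hh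
    rw [Fermat.Agent.H87.KL.piDvd_aeval_iff hy] at hnd
    refine ⟨hartogsPolyHom A E y H, ?_, ⟨⟨_, hhz⟩, rfl⟩⟩
    intro hHP
    apply hnd
    have : H ∈ P.under A[X] := hHP
    rw [heq, Ideal.mem_span_singleton] at this
    exact this
  · -- the horizontal case: `B_P` is a place centred at `𝔪`
    have hBV : ∀ b : ↥(chartClosure A E y), (b : E) ∈ V := fun b =>
      (hV _).2 ⟨1, hone, b, by rw [map_one, one_mul]; rfl⟩
    have hne0 : ∀ s : ↥(chartClosure A E y), s ∉ P → (s : E) ≠ 0 := by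
      intro s hs h0
      apply hs
      have : s = 0 := Subtype.ext h0
      rw [this]
      exact P.zero_mem
    have hinvV : ∀ s : ↥(chartClosure A E y), s ∉ P → (s : E)⁻¹ ∈ V := fun s hs =>
      (hV _).2 ⟨s, hs, 1, by
        rw [map_one]
        exact (mul_inv_cancel₀ (hne0 s hs)).symm⟩
    have hAP : ∀ a : A, a ≠ 0 → algebraMap A ↥(chartClosure A E y) a ∉ P := by
      intro a ha haP
      obtain ⟨n, hn⟩ := IsDiscreteValuationRing.associated_pow_irreducible ha hϖ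
      obtain ⟨u, hu⟩ := hn.symm
      rw [← hu, map_mul, map_pow] at haP
      rcases hP.mem_or_mem haP with h1 | h1
      · exact hϖP (hP.mem_of_pow_mem n h1)
      · exact hP.ne_top (Ideal.eq_top_of_isUnit_mem _ h1 (u.isUnit.map _))
    have hcen : CentredAt A E y 𝔪 V := by
      refine ⟨⟨⟨?_, hpid, ?_⟩, ?_⟩, ?_⟩
      · intro htop
        obtain ⟨b, hb, hb0⟩ := Submodule.exists_mem_ne_zero_of_ne_bot hP0
        have hbV : (b : E)⁻¹ ∈ V := by rw [htop]; trivial
        obtain ⟨s, hs, c, hc⟩ := (hV _).1 hbV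
        apply hs
        have hb0' : (b : E) ≠ 0 := fun h => hb0 (Subtype.ext h)
        have hsc : s = c * b := by
          apply hinjB
          rw [map_mul, hc]
          show (s : E) = (s : E) * (b : E)⁻¹ * (b : E)
          field_simp
        rw [hsc]
        exact Ideal.mul_mem_left _ _ hb
      · intro a ha
        exact ⟨hBV (algebraMap A ↥(chartClosure A E y) a),
          hinvV (algebraMap A ↥(chartClosure A E y) a) (hAP a ha)⟩
      · have hyB : y ∈ chartClosure A E y := by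
          have := Fermat.Agent.H41.SS.etale_aeval_mem_chartClosure A E y (X : A[X])
          rwa [aeval_X] at this
        exact hBV ⟨y, hyB⟩
      · intro s hs
        apply hP𝔪
        by_contra hsP
        have hsinv := hinvV s hsP
        rw [ValuationSubring.mem_nonunits_iff] at hs
        rw [← V.valuation_le_one_iff, map_inv₀] at hsinv
        have h3 : 0 < V.valuation (s : E) :=
          lt_of_le_of_ne zero_le (Ne.symm ((_root_.map_ne_zero _).2 (hne0 s hsP)))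
        exact absurd ((one_lt_inv₀ h3).2 hs) (not_lt.2 hsinv)
    exact (hV z).1 (hzV V ⟨hcen, P, hP, hP𝔪, hV⟩)

section Level

variable (M q : ℕ) [NeZero M] [NeZero q]
  (K₁ : Type) [Field K₁] [Algebra ℚ K₁] [FiniteDimensional ℚ K₁]
  (A₀ : Type) [CommRing A₀] [IsDomain A₀] [IsDiscreteValuationRing A₀]
  [Algebra A₀ K₁] [IsFractionRing A₀ K₁]
  [Algebra A₀ (ModelField K₁ (M * q))] [IsScalarTower A₀ K₁ (ModelField K₁ (M * q))]
  (hqA : ¬ IsUnit ((q : ℕ) : A₀)) (ϖ : A₀) (hϖ : Irreducible ϖ)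
  (x : ModelField K₁ (M * q)) (hx : (x : LaurentSeries K₁) = coeffEmb K₁ jq)
  (W : ModelField K₁ (M * q) ≃ₐ[K₁] ModelField K₁ (M * q)) (hW : IsAtkinLehnerModel K₁ M q W)
  (hq : q.Prime) (hqM : ¬ q ∣ M)

include hqA hϖ hx hW hq hqM

/-- helper4's `modelHartogsComp_of` with both horizontal hypotheses restricted to the
localisation-shaped places. -/
theorem hb_modelHartogsLoc_of (y : ModelField K₁ (M * q)) (hy : y = x ∨ y = x⁻¹)
    (𝔪 : Ideal (chartClosure A₀ (ModelField K₁ (M * q)) y)) (h𝔪p : 𝔪.IsPrime)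
    (hH : ∀ z : ModelField K₁ (M * q), z ∈ gaussClosure A₀ (ModelField K₁ (M * q)) ϖ y →
      (∀ V : ValuationSubring (ModelField K₁ (M * q)),
        CentredLoc A₀ (ModelField K₁ (M * q)) y 𝔪 V → z ∈ V) →
      ∃ b : chartClosure A₀ (ModelField K₁ (M * q)) y, b ∉ 𝔪 ∧
        (b : ModelField K₁ (M * q)) * z ∈ chartClosure A₀ (ModelField K₁ (M * q)) y)
    (g : ModelField K₁ (M * q))
    (hoo : (∀ b : chartClosure A₀ (ModelField K₁ (M * q)) y,
      (b : ModelField K₁ (M * q)) ∈ (vInf K₁ A₀ (M * q)).nonunits → b ∈ 𝔪) →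
      g ∈ vInf K₁ A₀ (M * q))
    (hzero : (∀ b : chartClosure A₀ (ModelField K₁ (M * q)) y,
      (b : ModelField K₁ (M * q)) ∈ (vZero K₁ A₀ (M * q) W).nonunits → b ∈ 𝔪) →
      g ∈ vZero K₁ A₀ (M * q) W)
    (hV : ∀ V : ValuationSubring (ModelField K₁ (M * q)),
      CentredLoc A₀ (ModelField K₁ (M * q)) y 𝔪 V → g ∈ V) :
    ∃ b : chartClosure A₀ (ModelField K₁ (M * q)) y, b ∉ 𝔪 ∧
      (b : ModelField K₁ (M * q)) * g ∈ chartClosure A₀ (ModelField K₁ (M * q)) y := by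
  classical
  have hB := Fermat.Agent.H4.ORD.mh_chartClosure_le M q K₁ A₀ hqA ϖ hϖ x hx W hW hq hqM y hy
  -- the multiplier for the component `∞`
  obtain ⟨f₁, hf₁𝔪, hf₁g⟩ : ∃ f₁ : chartClosure A₀ (ModelField K₁ (M * q)) y, f₁ ∉ 𝔪 ∧
      (f₁ : ModelField K₁ (M * q)) * g ∈ vInf K₁ A₀ (M * q) := by
    by_cases h : ∀ b : chartClosure A₀ (ModelField K₁ (M * q)) y,
        (b : ModelField K₁ (M * q)) ∈ (vInf K₁ A₀ (M * q)).nonunits → b ∈ 𝔪
    · refine ⟨1, (Ideal.ne_top_iff_one 𝔪).1 h𝔪p.ne_top, ?_⟩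
      simpa using hoo h
    · push Not at h
      obtain ⟨b, hb, hb𝔪⟩ := h
      obtain ⟨n, hn⟩ := Fermat.Agent.H4.ORD.mh_pow_mul_mem (vInf K₁ A₀ (M * q))
        (isUniformiser_vInf (K₁ := K₁) (N := M * q) hϖ)
        (Fermat.Agent.H4.ORD.mh_factor_vInf (K₁ := K₁) (N := M * q) hϖ) hb g
      exact ⟨b ^ n, fun h => hb𝔪 (h𝔪p.mem_of_pow_mem n h), hn⟩
  -- the multiplier for the component `0`
  obtain ⟨f₂, hf₂𝔪, hf₂g⟩ : ∃ f₂ : chartClosure A₀ (ModelField K₁ (M * q)) y, f₂ ∉ 𝔪 ∧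
      (f₂ : ModelField K₁ (M * q)) * g ∈ vZero K₁ A₀ (M * q) W := by
    by_cases h : ∀ b : chartClosure A₀ (ModelField K₁ (M * q)) y,
        (b : ModelField K₁ (M * q)) ∈ (vZero K₁ A₀ (M * q) W).nonunits → b ∈ 𝔪
    · refine ⟨1, (Ideal.ne_top_iff_one 𝔪).1 h𝔪p.ne_top, ?_⟩
      simpa using hzero h
    · push Not at h
      obtain ⟨b, hb, hb𝔪⟩ := h
      obtain ⟨n, hn⟩ := Fermat.Agent.H4.ORD.mh_pow_mul_mem (vZero K₁ A₀ (M * q) W)
        (isUniformiser_vZero (K₁ := K₁) (N := M * q) W hϖ)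
        (Fermat.Agent.H4.ORD.mh_factor_vZero (K₁ := K₁) (N := M * q) W hϖ) hb g
      exact ⟨b ^ n, fun h => hb𝔪 (h𝔪p.mem_of_pow_mem n h), hn⟩
  -- `f₁ f₂ g ∈ V_∞ ∩ V_0 = C(y)`
  have h1 : ((f₁ * f₂ : chartClosure A₀ (ModelField K₁ (M * q)) y) : ModelField K₁ (M * q)) * g ∈
      vInf K₁ A₀ (M * q) := by
    have e : ((f₁ * f₂ : chartClosure A₀ (ModelField K₁ (M * q)) y) : ModelField K₁ (M * q)) * g =
        (f₂ : ModelField K₁ (M * q)) * ((f₁ : ModelField K₁ (M * q)) * g) := by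
      push_cast
      ring
    rw [e]
    exact (vInf K₁ A₀ (M * q)).mul_mem _ _ (hB _ f₂.2).1 hf₁g
  have h2 : ((f₁ * f₂ : chartClosure A₀ (ModelField K₁ (M * q)) y) : ModelField K₁ (M * q)) * g ∈
      vZero K₁ A₀ (M * q) W := by
    have e : ((f₁ * f₂ : chartClosure A₀ (ModelField K₁ (M * q)) y) : ModelField K₁ (M * q)) * g =
        (f₁ : ModelField K₁ (M * q)) * ((f₂ : ModelField K₁ (M * q)) * g) := by
      push_cast
      ring
    rw [e]
    exact (vZero K₁ A₀ (M * q) W).mul_mem _ _ (hB _ f₁.2).2 hf₂g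
  have hC := Fermat.Agent.H4.ORD.mh_mem_gaussClosure M q K₁ A₀ hqA ϖ hϖ x hx W hW hq hqM y hy
    _ h1 h2
  have hVV : ∀ V : ValuationSubring (ModelField K₁ (M * q)),
      CentredLoc A₀ (ModelField K₁ (M * q)) y 𝔪 V →
      ((f₁ * f₂ : chartClosure A₀ (ModelField K₁ (M * q)) y) : ModelField K₁ (M * q)) * g ∈ V :=
    fun V hVc => V.mul_mem _ _
      (Fermat.Agent.H31.SS.mem_of_mem_chartClosure hVc.1.1 (f₁ * f₂).2) (hV V hVc)
  obtain ⟨b, hb𝔪, hbz⟩ := hH _ hC hVV
  refine ⟨b * (f₁ * f₂), ?_, ?_⟩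
  · intro h
    rcases h𝔪p.mem_or_mem h with h | h
    · exact hb𝔪 h
    · rcases h𝔪p.mem_or_mem h with h | h
      · exact hf₁𝔪 h
      · exact hf₂𝔪 h
  · have e : ((b * (f₁ * f₂) : chartClosure A₀ (ModelField K₁ (M * q)) y) :
        ModelField K₁ (M * q)) * g =
        (b : ModelField K₁ (M * q)) *
          (((f₁ * f₂ : chartClosure A₀ (ModelField K₁ (M * q)) y) : ModelField K₁ (M * q)) * g) := by
      push_cast
      ring
    rw [e]
    exact hbz

/-- **MODEL-LEVEL LOCAL HARTOGS WITH COMPONENT HYPOTHESES, horizontal hypothesis on the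
localisation-shaped places only.** -/
theorem hb_hartModelLoc (y : ModelField K₁ (M * q)) (hy : y = x ∨ y = x⁻¹)
    (𝔪 : Ideal (chartClosure A₀ (ModelField K₁ (M * q)) y)) (h𝔪p : 𝔪.IsPrime)
    (g : ModelField K₁ (M * q))
    (hoo : (∀ b : chartClosure A₀ (ModelField K₁ (M * q)) y,
      (b : ModelField K₁ (M * q)) ∈ (vInf K₁ A₀ (M * q)).nonunits → b ∈ 𝔪) →
      g ∈ vInf K₁ A₀ (M * q))
    (hzero : (∀ b : chartClosure A₀ (ModelField K₁ (M * q)) y,
      (b : ModelField K₁ (M * q)) ∈ (vZero K₁ A₀ (M * q) W).nonunits → b ∈ 𝔪) →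
      g ∈ vZero K₁ A₀ (M * q) W)
    (hV : ∀ V : ValuationSubring (ModelField K₁ (M * q)),
      CentredLoc A₀ (ModelField K₁ (M * q)) y 𝔪 V → g ∈ V) :
    ∃ b : chartClosure A₀ (ModelField K₁ (M * q)) y, b ∉ 𝔪 ∧
      (b : ModelField K₁ (M * q)) * g ∈ chartClosure A₀ (ModelField K₁ (M * q)) y := by
  haveI : CharZero K₁ := charZero_of_injective_algebraMap (algebraMap ℚ K₁).injective
  haveI : CharZero (ModelField K₁ (M * q)) :=
    charZero_of_injective_algebraMap (algebraMap K₁ (ModelField K₁ (M * q))).injective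
  obtain ⟨hytr, hfin, hinj⟩ :=
    Fermat.Agent.H4.ORD.mh_chart_facts M q K₁ A₀ hqA ϖ hϖ x hx W hW hq hqM y hy
  exact hb_modelHartogsLoc_of M q K₁ A₀ hqA ϖ hϖ x hx W hW hq hqM y hy 𝔪 h𝔪p
    (fun z hzC hzV => hb_localHartogs_loc A₀ (ModelField K₁ (M * q))
      hinj ϖ hϖ y hytr hfin 𝔪 h𝔪p z hzC hzV)
    g hoo hzero hV

end Level

section PlaceOf

variable {A₀ K₁ E : Type} [CommRing A₀] [IsDomain A₀] [Field K₁] [Field E] [Algebra A₀ K₁]
  [IsFractionRing A₀ K₁] [Algebra A₀ E] [Algebra K₁ E] [IsScalarTower A₀ K₁ E]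

/-- constants lie in a valuation subring satisfying `IsPlace` -/
theorem hb_algebraMap_mem_of_isPlace (V : ValuationSubring E) (hV : IsPlace A₀ E V) (c : K₁) :
    algebraMap K₁ E c ∈ V := by
  obtain ⟨a, b, hb, rfl⟩ := IsFractionRing.div_surjective (A := A₀) c
  have hb0 : b ≠ 0 := nonZeroDivisors.ne_zero hb
  rw [map_div₀, ← IsScalarTower.algebraMap_apply A₀ K₁ E, ← IsScalarTower.algebraMap_apply A₀ K₁ E,
    div_eq_mul_inv]
  refine V.mul_mem _ _ ?_ (hV.2.2 b hb0).2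
  by_cases ha : a = 0
  · rw [ha, map_zero]
    exact V.zero_mem
  · exact (hV.2.2 a ha).1

/-- the `Place` of a valuation subring satisfying `IsPlace` -/
def hb_placeOfIsPlace (V : ValuationSubring E) (hV : IsPlace A₀ E V) : Place K₁ E where
  toValuationSubring := V
  algebraMap_mem' := hb_algebraMap_mem_of_isPlace V hV
  ne_top' := hV.1
  isPrincipalIdealRing' := hV.2.1

end PlaceOf

section Bar

open Fermat.Agent.H72.FF Fermat.Agent.H18.ORD Fermat.Agent.H84.ORD Fermat.Agent.H93.KL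

variable (M p : ℕ) [NeZero M] [NeZero p] (A : ValuationSubring Qb)
  {K₁ : Type} [Field K₁] [Algebra ℚ K₁] [FiniteDimensional ℚ K₁] (ι : K₁ →+* QBar)
  [IsDiscreteValuationRing ↥(A.comap ι)]
  [Algebra ↥(A.comap ι) (ModelField K₁ (M * p))]
  [IsScalarTower ↥(A.comap ι) K₁ (ModelField K₁ (M * p))]

/-- **MODEL-LEVEL LOCAL HARTOGS AT THE CENTRE OF A PLACE OF `FLb (M p)`, HORIZONTAL HYPOTHESIS AT
THE `ℚ̄`-LEVEL.**  `𝔪` is the centre of `P` on the `K₁`-chart `B(y₁)` (helper30's `ddCentre`).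
If `g₁` is in `V_∞` (resp. `V_0`) whenever that component passes through `𝔪`, and `bc g₁` is
regular at every place `P'` of `FLb (M p)` with the same centre as `P`, then `g₁` is regular at
`𝔪`. -/
theorem nmHartModelBar (hqA : ¬ IsUnit ((p : ℕ) : ↥(A.comap ι))) (hp : p.Prime) (hpM : ¬ p ∣ M)
    (x : ModelField K₁ (M * p)) (hx : (x : LaurentSeries K₁) = coeffEmb K₁ jq)
    (W : ModelField K₁ (M * p) ≃ₐ[K₁] ModelField K₁ (M * p)) (hW : IsAtkinLehnerModel K₁ M p W)
    (y₁ : ModelField K₁ (M * p)) (hy₁ : y₁ = x ∨ y₁ = x⁻¹)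
    (P : Place Qb (FLb (M * p)))
    (hy : klBc ι (modularFunctionFieldFull (M * p)) y₁ = nmY A P)
    (𝔪 : Ideal ↥(chartClosure ↥(A.comap ι) (ModelField K₁ (M * p)) y₁)) (h𝔪 : 𝔪.IsMaximal)
    (h𝔪P : ∀ r : ↥(chartClosure ↥(A.comap ι) (ModelField K₁ (M * p)) y₁),
      klBc ι (modularFunctionFieldFull (M * p)) (r : ModelField K₁ (M * p)) ∈ nmMax A P ↔ r ∈ 𝔪)
    (g₁ : ModelField K₁ (M * p))
    (hoo : (∀ b : ↥(chartClosure ↥(A.comap ι) (ModelField K₁ (M * p)) y₁),
      (b : ModelField K₁ (M * p)) ∈ (vInf K₁ ↥(A.comap ι) (M * p)).nonunits → b ∈ 𝔪) →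
      g₁ ∈ vInf K₁ ↥(A.comap ι) (M * p))
    (hzero : (∀ b : ↥(chartClosure ↥(A.comap ι) (ModelField K₁ (M * p)) y₁),
      (b : ModelField K₁ (M * p)) ∈ (vZero K₁ ↥(A.comap ι) (M * p) W).nonunits → b ∈ 𝔪) →
      g₁ ∈ vZero K₁ ↥(A.comap ι) (M * p) W)
    (hpl : ∀ P' : Place Qb (FLb (M * p)), nmCentre A P' = nmCentre A P →
      klBc ι (modularFunctionFieldFull (M * p)) g₁ ∈ P'.toValuationSubring) :
    ∃ b : ↥(chartClosure ↥(A.comap ι) (ModelField K₁ (M * p)) y₁), b ∉ 𝔪 ∧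
      (b : ModelField K₁ (M * p)) * g₁ ∈
        chartClosure ↥(A.comap ι) (ModelField K₁ (M * p)) y₁ := by
  haveI : CharZero K₁ := charZero_of_injective_algebraMap (algebraMap ℚ K₁).injective
  haveI : CharZero (ModelField K₁ (M * p)) :=
    charZero_of_injective_algebraMap (algebraMap K₁ (ModelField K₁ (M * p))).injective
  obtain ⟨ϖ, hϖ⟩ := IsDiscreteValuationRing.exists_irreducible ↥(A.comap ι)
  obtain ⟨hytr, hfin, hinj⟩ :=
    Fermat.Agent.H4.ORD.mh_chart_facts M p K₁ ↥(A.comap ι) hqA ϖ hϖ x hx W hW hp hpM y₁ hy₁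
  haveI hic := chartClosure_isIntegrallyClosed ↥(A.comap ι) (ModelField K₁ (M * p)) y₁ hytr hfin
  refine hb_hartModelLoc M p K₁ ↥(A.comap ι) hqA ϖ hϖ x hx W hW hp hpM y₁ hy₁ 𝔪 h𝔪.isPrime g₁
    hoo hzero ?_
  rintro V ⟨hcen, P', hP', hP'𝔪, hV⟩
  haveI := hP'
  obtain ⟨P'', hc, hP''⟩ := nmPlaceOverFinal (N := M * p) A ι P y₁ hy 𝔪 h𝔪 h𝔪P P' hP'𝔪
    (hb_placeOfIsPlace (A₀ := ↥(A.comap ι)) (K₁ := K₁) V hcen.1.1) hV
  exact (hP'' g₁).1 (hpl P'' hc)

end Bar

end Fermat.Agent.H91.ORD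

end
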